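import Fermat.Agent.MW.DivisibleDescent
import Fermat.Agent.FF.ConstExt.Descent

/-!
# Descending divisibility of `Pic⁰` along a constant field extension

If `Pic⁰` over an algebraically closed field `L` is divisible by `m` with finite `m`-torsion, the
same holds over an algebraically closed subfield `K`.
-/

set_option autoImplicit false
set_option linter.unusedSectionVars false

noncomputable section

open AlgebraicCurve

namespace Fermat.Agent.MW

variable {K F : Type*} [Field K] [Field F] [Algebra K F]
variable (L F' : Type*) [Field L] [Field F']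
  [Algebra K L] [Algebra L F'] [Algebra F F'] [Algebra K F']
  [IsScalarTower K L F'] [IsScalarTower K F F'] [FF.ConstExt.IsConstExt K L F F']
variable [IsAlgClosed K] [IsAlgClosed L] [FF.IsFunctionField K F]

/-- Divisibility and finite torsion over `L` give divisibility over `K`. -/
theorem exists_nsmul_eq_descent {m : ℕ} (hdiv : ∀ z : Pic0 L F', ∃ y, m • y = z)
    (htor : {t : Pic0 L F' | m • t = 0}.Finite) (z : Pic0 K F) : ∃ y : Pic0 K F, m • y = z := by
  let Φ : Set (Pic0 L F' →+ Pic0 L F') :=
    Set.range fun σ : L ≃ₐ[K] L =>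
      DistribSMul.toAddMonoidHom (Pic0 L F') (FF.ConstExt.extAut (F := F) F' σ)
  refine exists_nsmul_eq_of_finite_orbit (FF.ConstExt.extPic0 L F')
    FF.ConstExt.extPic0_injective Φ ?_ (fun y hy => ?_) hdiv htor z
  · rintro _ ⟨σ, rfl⟩ x
    show FF.ConstExt.extAut (F := F) F' σ • FF.ConstExt.extPic0 L F' x = _
    rw [FF.ConstExt.smul_extPic0 (FF.ConstExt.isCompatibleAut_extAut σ), one_smul]
  · refine FF.ConstExt.mem_range_extPic0_of_finite_extAut_orbit y (hy.subset ?_)
    rintro _ ⟨σ, rfl⟩
    exact ⟨_, ⟨σ, rfl⟩, rfl⟩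

/-- Finiteness of torsion over `K`. -/
theorem finite_torsion_descent {m : ℕ} (htor : {t : Pic0 L F' | m • t = 0}.Finite) :
    {t : Pic0 K F | m • t = 0}.Finite :=
  finite_torsion_of_injective (FF.ConstExt.extPic0 L F') FF.ConstExt.extPic0_injective htor

end Fermat.Agent.MW

end
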