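import Fermat.Prelude.Def_AlgebraicCurve_DivisorClassGroup
import Mathlib.Analysis.Meromorphic.Order
import Mathlib.Analysis.Complex.Basic
import Mathlib.Topology.Connected.Clopen
import Mathlib.LinearAlgebra.Trace

/-!
# Uniformised curves over `ℂ`: basic separation lemmas

`Uniformization F` records a connected open subset of `ℂ` mapping to the places of a function
field `F/ℂ`, compatibly with orders of meromorphic functions.  `RRWeak` is the little bit of
Riemann-Roch needed for divisibility of `Pic0`.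
-/

set_option autoImplicit false

noncomputable section

open Filter Topology AlgebraicCurve

namespace Fermat.Agent.MW

section RR

variable (K F : Type*) [Field K] [Field F] [Algebra K F]

/-- For divisors of large degree, adding one place gives a new function. -/
def RRWeak : Prop :=
  ∃ c : ℤ, ∀ (D : Divisor K F) (v : Place K F), c ≤ Divisor.degree D →
    ∃ f : F, f ≠ 0 ∧ (∀ w, w ≠ v → -D w ≤ w.ord f) ∧ v.ord f = -D v - 1

variable {K F}

theorem RRWeak.exists_pole (h : RRWeak K F) (hdeg : ∀ w : Place K F, w.deg = 1) (v : Place K F) :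
    ∃ f : F, f ≠ 0 ∧ (∀ w, w ≠ v → 0 ≤ w.ord f) ∧ v.ord f < 0 := by
  classical
  obtain ⟨c, hc⟩ := h
  obtain ⟨f, hf, hw, hv⟩ := hc (Finsupp.single v (max c 0)) v (by
    rw [Divisor.degree_single, hdeg]; simp)
  refine ⟨f, hf, fun w hwv => ?_, ?_⟩
  · simpa [Finsupp.single_eq_of_ne hwv] using hw w hwv
  · rw [hv, Finsupp.single_eq_same]
    have := le_max_right c 0
    omega

theorem place_exists_residue (v : Place K F) (hv : v.deg = 1) {f : F}
    (hf : 0 ≤ v.ord f) : ∃ c : K, f = algebraMap K F c ∨ 0 < v.ord (f - algebraMap K F c) := by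
  classical
  rcases eq_or_ne f 0 with rfl | hf0
  · exact ⟨0, Or.inl (by simp)⟩
  obtain ⟨π, hπ⟩ := IsDiscreteValuationRing.exists_irreducible v.toValuationSubring
  obtain ⟨u, hu⟩ := v.exists_unit_mul_zpow hf0 hπ
  have hmem : f ∈ v.toValuationSubring := by
    obtain ⟨k, hk⟩ := Int.eq_ofNat_of_zero_le hf
    rw [hu, hk, zpow_natCast]
    exact mul_mem (Subtype.prop _) (pow_mem π.2 _)
  obtain ⟨c, hc⟩ := (Module.Free.bijective_algebraMap_of_finrank_eq_one hv).2
    (IsLocalRing.residue v.toValuationSubring ⟨f, hmem⟩)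
  refine ⟨c, (em (f = algebraMap K F c)).imp id fun hne => ?_⟩
  set a : v.toValuationSubring := ⟨f, hmem⟩ - algebraMap K _ c
  have ha : (a : F) = f - algebraMap K F c := rfl
  have hnu : ¬ IsUnit a := by
    rw [← mem_nonunits_iff, ← IsLocalRing.mem_maximalIdeal, ← IsLocalRing.residue_eq_zero_iff]
    show IsLocalRing.residue _ (_ - _) = 0
    rw [map_sub, sub_eq_zero]
    exact hc.symm
  have ha0 : a ≠ 0 := fun h => hne (sub_eq_zero.mp (by rw [← ha, h]; rfl))
  obtain ⟨k, u', hu'⟩ := IsDiscreteValuationRing.eq_unit_mul_pow_irreducible ha0 hπ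
  have hk : k ≠ 0 := by rintro rfl; exact hnu (by rw [hu']; simp)
  have hord : v.ord (a : F) = k := by
    rw [hu', show ((↑u' * π ^ k : v.toValuationSubring) : F)
      = ((u' : v.toValuationSubring) : F) * (π : F) ^ (k : ℤ) from by simp [zpow_natCast]]
    exact v.ord_unit_smul_zpow u' hπ k
  rw [← ha, hord]
  omega

end RR

/-- A connected open piece of `ℂ` mapping to the places of the function field `F`. -/
structure Uniformization (F : Type*) [Field F] [Algebra ℂ F] where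
  U : Set ℂ
  isOpen_U : IsOpen U
  isPreconnected_U : IsPreconnected U
  pl : ℂ → Place ℂ F
  val : F → ℂ → ℂ
  e : ℂ → ℕ
  e_pos : ∀ τ ∈ U, 0 < e τ
  eventually_e_eq_one : ∀ τ ∈ U, e τ = 1 → ∀ᶠ z in 𝓝 τ, e z = 1
  exists_e_eq_one : ∃ τ ∈ U, e τ = 1
  meromorphicAt_val : ∀ f, ∀ τ ∈ U, MeromorphicAt (val f) τ
  val_one : ∀ τ ∈ U, val 1 =ᶠ[𝓝[≠] τ] fun _ => 1
  val_add : ∀ f g, ∀ τ ∈ U, val (f + g) =ᶠ[𝓝[≠] τ] fun z => val f z + val g z
  val_smul : ∀ (c : ℂ) f, ∀ τ ∈ U,
    val (algebraMap ℂ F c * f) =ᶠ[𝓝[≠] τ] fun z => c * val f z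
  order_val : ∀ f, f ≠ 0 → ∀ τ ∈ U,
    meromorphicOrderAt (val f) τ = (((e τ : ℤ) * (pl τ).ord f : ℤ) : WithTop ℤ)

namespace Uniformization

variable {F : Type*} [Field F] [Algebra ℂ F] (u : Uniformization F)
variable {τ a b : ℂ}

theorem val_zero (hτ : τ ∈ u.U) : u.val 0 =ᶠ[𝓝[≠] τ] fun _ => 0 := by
  simpa using u.val_smul 0 0 τ hτ

theorem val_const (c : ℂ) (hτ : τ ∈ u.U) :
    u.val (algebraMap ℂ F c) =ᶠ[𝓝[≠] τ] fun _ => c := by
  filter_upwards [u.val_smul c 1 τ hτ, u.val_one τ hτ] with z h1 h2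
  rw [mul_one] at h1
  rw [h1, h2, mul_one]

theorem val_sum {ι : Type*} (s : Finset ι) (x : ι → ℂ) (φ : ι → F) (hτ : τ ∈ u.U) :
    u.val (∑ j ∈ s, algebraMap ℂ F (x j) * φ j) =ᶠ[𝓝[≠] τ]
      fun z => ∑ j ∈ s, x j * u.val (φ j) z := by
  classical
  induction s using Finset.induction_on with
  | empty => simpa using u.val_zero hτ
  | insert j s hj ih =>
    rw [Finset.sum_insert hj]
    filter_upwards [ih, u.val_add (algebraMap ℂ F (x j) * φ j)
      (∑ j ∈ s, algebraMap ℂ F (x j) * φ j) τ hτ, u.val_smul (x j) (φ j) τ hτ] with z h1 h2 h3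
    rw [h2, h3, h1, Finset.sum_insert hj]

theorem order_nonneg_iff {f : F} (hf : f ≠ 0) (hτ : τ ∈ u.U) :
    0 ≤ meromorphicOrderAt (u.val f) τ ↔ 0 ≤ (u.pl τ).ord f := by
  rw [u.order_val f hf τ hτ, ← WithTop.coe_zero, WithTop.coe_le_coe]
  have := u.e_pos τ hτ
  constructor
  · intro h; nlinarith
  · intro h; positivity

theorem order_pos_iff {f : F} (hf : f ≠ 0) (hτ : τ ∈ u.U) :
    0 < meromorphicOrderAt (u.val f) τ ↔ 0 < (u.pl τ).ord f := by
  rw [u.order_val f hf τ hτ, ← WithTop.coe_zero, WithTop.coe_lt_coe]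
  have := u.e_pos τ hτ
  constructor
  · intro h; nlinarith
  · intro h; positivity

/-- Limit of `f` at a point whose place has residue `c`. -/
theorem tendsto_val {f : F} {c : ℂ} (hτ : τ ∈ u.U)
    (h : f = algebraMap ℂ F c ∨ 0 < (u.pl τ).ord (f - algebraMap ℂ F c)) :
    Tendsto (u.val f) (𝓝[≠] τ) (𝓝 c) := by
  by_cases hfc : f = algebraMap ℂ F c
  · rw [hfc]
    exact tendsto_const_nhds.congr' (u.val_const c hτ).symm
  · have h0 : f - algebraMap ℂ F c ≠ 0 := sub_ne_zero.mpr hfc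
    have h1 := tendsto_zero_of_meromorphicOrderAt_pos
      ((u.order_pos_iff h0 hτ).mpr (h.resolve_left hfc))
    have h2 : u.val f =ᶠ[𝓝[≠] τ] fun z => u.val (f - algebraMap ℂ F c) z + c := by
      filter_upwards [u.val_add (f - algebraMap ℂ F c) (algebraMap ℂ F c) τ hτ,
        u.val_const c hτ] with z e1 e2
      rw [sub_add_cancel] at e1
      rw [e1, e2]
    refine Tendsto.congr' h2.symm ?_
    simpa using h1.add_const c

/-- Near a point every other point has another place. -/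
theorem eventually_pl_ne (hRR : RRWeak ℂ F) (hdeg : ∀ w : Place ℂ F, w.deg = 1)
    (P : Place ℂ F) (ha : a ∈ u.U) : ∀ᶠ q in 𝓝[≠] a, u.pl q ≠ P := by
  obtain ⟨φ, hφ0, -, hφP⟩ := hRR.exists_pole hdeg P
  filter_upwards [(u.meromorphicAt_val φ a ha).eventually_analyticAt,
    nhdsWithin_le_nhds (u.isOpen_U.mem_nhds ha)] with q hq hqU hP
  have := (u.order_nonneg_iff hφ0 hqU).mp hq.meromorphicOrderAt_nonneg
  rw [hP] at this
  omega

/-- Points near `a`, `b` with different places have different places. -/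
theorem eventually_pl_ne_pl (hRR : RRWeak ℂ F) (hdeg : ∀ w : Place ℂ F, w.deg = 1)
    (ha : a ∈ u.U) (hb : b ∈ u.U) (hab : u.pl a ≠ u.pl b) :
    ∀ᶠ p in 𝓝 a ×ˢ 𝓝 b, u.pl p.1 ≠ u.pl p.2 := by
  obtain ⟨φ, hφ0, hφ, hφa⟩ := hRR.exists_pole hdeg (u.pl a)
  obtain ⟨c, hc⟩ := place_exists_residue (u.pl b) (hdeg _) (hφ _ hab.symm)
  have hcb := u.tendsto_val hb hc
  have hneg : meromorphicOrderAt (u.val φ) a < 0 := by
    rw [u.order_val φ hφ0 a ha, ← WithTop.coe_zero, WithTop.coe_lt_coe]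
    have := u.e_pos a ha
    nlinarith
  have hbig := tendsto_norm_atTop_iff_cobounded.mpr
    (tendsto_cobounded_of_meromorphicOrderAt_neg hneg)
  set M := ‖c‖ + 1 with hM
  have hA : ∀ᶠ x in 𝓝 a, x ∈ u.U ∧ (x ≠ a → M ≤ ‖u.val φ x‖ ∧ AnalyticAt ℂ (u.val φ) x) := by
    refine (u.isOpen_U.eventually_mem ha).and (eventually_nhdsWithin_iff.mp ?_)
    exact (hbig.eventually_ge_atTop M).and (u.meromorphicAt_val φ a ha).eventually_analyticAt
  have hB : ∀ᶠ y in 𝓝 b, y ∈ u.U ∧ (y ≠ b → ‖u.val φ y‖ < M ∧ AnalyticAt ℂ (u.val φ) y) := by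
    refine (u.isOpen_U.eventually_mem hb).and (eventually_nhdsWithin_iff.mp ?_)
    exact (hcb.norm.eventually_lt_const (by simp [hM])).and
      (u.meromorphicAt_val φ b hb).eventually_analyticAt
  filter_upwards [hA.prod_mk hB] with p hp heq
  obtain ⟨⟨hxU, hx⟩, hyU, hy⟩ := hp
  by_cases hxa : p.1 = a
  · rw [hxa] at heq
    by_cases hyb : p.2 = b
    · rw [hyb] at heq; exact hab heq
    · have := (u.order_nonneg_iff hφ0 hyU).mp (hy hyb).2.meromorphicOrderAt_nonneg
      rw [← heq] at this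
      omega
  · obtain ⟨hMx, hanx⟩ := hx hxa
    have hordx := (u.order_nonneg_iff hφ0 hxU).mp hanx.meromorphicOrderAt_nonneg
    obtain ⟨d, hd⟩ := place_exists_residue (u.pl p.1) (hdeg _) hordx
    have hdx : u.val φ p.1 = d := tendsto_nhds_unique
      (hanx.continuousAt.tendsto.mono_left nhdsWithin_le_nhds) (u.tendsto_val hxU hd)
    have hdy := u.tendsto_val hyU (heq ▸ hd)
    rw [hdx] at hMx
    by_cases hyb : p.2 = b
    · rw [hyb] at hdy
      have := tendsto_nhds_unique hcb hdy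
      rw [← this, hM] at hMx
      linarith
    · obtain ⟨hMy, hany⟩ := hy hyb
      have : u.val φ p.2 = d := tendsto_nhds_unique
        (hany.continuousAt.tendsto.mono_left nhdsWithin_le_nhds) hdy
      rw [this] at hMy
      linarith

end Uniformization

end Fermat.Agent.MW
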