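import Fermat.Agent.FF.RiemannRoch
import Fermat.Agent.MW.DivisibleBasic

/-!
# Riemann-Roch inputs for divisibility, open stabilisers and heights
-/

set_option autoImplicit false

noncomputable section

open AlgebraicCurve Fermat.Agent.FF

namespace Fermat.Agent.MW

variable {K F : Type*} [Field K] [Field F] [Algebra K F] [IsAlgClosed K]
  [IsFunctionField K F]

theorem deg_eq_one_of_finiteResidue (v : Place K F) : v.deg = 1 :=
  haveI : Module.Finite K v.ResidueField := Place.FiniteResidue.finite
  v.deg_eq_one_of_isAlgClosed_of_finite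

/-- Riemann-Roch for divisors of degree at least `2g - 1`. -/
theorem rrDim_of_large (D : Divisor K F) (hD : 2 * (genusFF K F : ℤ) - 1 ≤ Divisor.degree D) :
    (rrDim D : ℤ) = Divisor.degree D + 1 - genusFF K F := by
  obtain ⟨W, hW, -, -, hrr⟩ := exists_riemannRoch (K := K) (F := F)
  have h0 : rrDim (0 : Divisor K F) = 1 := rrDim_zero_eq_one
  have hneg : Divisor.degree (W - D) < 0 := by
    rw [map_sub, hW, h0, Nat.cast_one]
    omega
  have hz : rrDim (W - D) = 0 := by
    unfold rrDim
    rw [riemannRochSpace_eq_bot hneg, finrank_bot]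
  have h := hrr D
  rw [hz, h0, Nat.cast_one, Nat.cast_zero, sub_zero] at h
  exact h

theorem rrWeak : RRWeak K F := by
  refine ⟨2 * (genusFF K F : ℤ) - 1, fun D v hD => ?_⟩
  have h1 := rrDim_of_large D hD
  have hdeg : Divisor.degree (D + Finsupp.single v 1) = Divisor.degree D + 1 := by
    rw [map_add, Divisor.degree_single, deg_eq_one_of_finiteResidue]
    norm_num
  have h2 := rrDim_of_large (D + Finsupp.single v 1) (by rw [hdeg]; omega)
  rw [hdeg] at h2
  obtain ⟨f, hf, hfD⟩ := SetLike.not_le_iff_exists.mp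
    (fun h : riemannRochSpace (D + Finsupp.single v 1) ≤ riemannRochSpace D => by
      have h3 : rrDim (D + Finsupp.single v 1) ≤ rrDim D := Submodule.finrank_mono h
      omega)
  have hf0 : f ≠ 0 := fun h => hfD (h ▸ zero_mem _)
  rw [mem_riemannRochSpace_iff] at hf hfD
  have hw : ∀ w, w ≠ v → -D w ≤ w.ord f := fun w hwv => by
    simpa [Finsupp.single_eq_of_ne hwv] using (hf w).resolve_left hf0
  refine ⟨f, hf0, hw, ?_⟩
  obtain ⟨w, hw'⟩ := not_forall.mp hfD
  rw [not_or] at hw'
  have hwv : w = v := by_contra fun h => hw'.2 (hw w h)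
  subst hwv
  have h4 := (hf w).resolve_left hf0
  rw [Finsupp.add_apply, Finsupp.single_eq_same] at h4
  have := hw'.2
  omega

theorem exists_unique_pole (v : Place K F) :
    ∃ f : F, f ≠ 0 ∧ (∀ w, w ≠ v → 0 ≤ w.ord f) ∧ v.ord f < 0 :=
  rrWeak.exists_pole deg_eq_one_of_finiteResidue v

end Fermat.Agent.MW
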