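import Fermat.Prelude.Def_ModularCurve_ArithmeticGalois
import Mathlib.FieldTheory.IntermediateField.Algebraic
import Mathlib.FieldTheory.Galois.Infinite

/-!
# Open stabilisers

Every element of the modular function field over `ℚ̄`, every place, divisor and class is fixed by
the Galois group of a finite extension of `ℚ`.
-/

set_option autoImplicit false

noncomputable section

open AlgebraicCurve ModularCurve

namespace Fermat.Agent.MW

section Level

variable {k : Type*} [Field k] [Algebra ℚ k] {X : Type*} [SMul (k ≃ₐ[ℚ] k) X]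

/-- `x` is fixed by the automorphisms fixing some finite extension of `ℚ`. -/
def FixedByFiniteLevel (k : Type*) [Field k] [Algebra ℚ k] {X : Type*} [SMul (k ≃ₐ[ℚ] k) X]
    (x : X) : Prop :=
  ∃ L : IntermediateField ℚ k, FiniteDimensional ℚ L ∧
    ∀ σ : k ≃ₐ[ℚ] k, (∀ a ∈ L, σ a = a) → σ • x = x

/-- Finitely many elements are fixed by one finite level. -/
theorem exists_level_of_finite {s : Set X} (hs : s.Finite)
    (h : ∀ x ∈ s, FixedByFiniteLevel k x) :
    ∃ L : IntermediateField ℚ k, FiniteDimensional ℚ L ∧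
      ∀ σ : k ≃ₐ[ℚ] k, (∀ a ∈ L, σ a = a) → ∀ x ∈ s, σ • x = x := by
  induction s, hs using Set.Finite.induction_on with
  | empty => exact ⟨⊥, inferInstance, fun _ _ x hx => absurd hx (Set.notMem_empty x)⟩
  | @insert a s _ _ ih =>
    obtain ⟨L, hL, hLs⟩ := ih fun x hx => h x (Set.mem_insert_of_mem _ hx)
    obtain ⟨M, hM, hMa⟩ := h a (Set.mem_insert _ _)
    refine ⟨L ⊔ M, inferInstance, fun σ hσ x hx => ?_⟩
    rcases Set.mem_insert_iff.mp hx with rfl | hx
    · exact hMa σ fun b hb => hσ b (le_sup_right (a := L) hb)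
    · exact hLs σ (fun b hb => hσ b (le_sup_left (b := M) hb)) x hx

end Level

section Semilinear

variable {k F : Type*} [Field k] [Algebra ℚ k] [Field F] [Algebra k F]
  (ρ : (k ≃ₐ[ℚ] k) →* SemilinearAut k F)

/-- A place which is the only pole of a function fixed at a finite level is fixed at that
level. -/
theorem place_fixed_level
    (hfin : ∀ x : F, ∃ L : IntermediateField ℚ k, FiniteDimensional ℚ L ∧
      ∀ σ : k ≃ₐ[ℚ] k, (∀ a ∈ L, σ a = a) → ρ σ • x = x)
    (v : Place k F)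
    (hpole : ∃ f : F, f ≠ 0 ∧ (∀ w, w ≠ v → 0 ≤ w.ord f) ∧ v.ord f < 0) :
    ∃ L : IntermediateField ℚ k, FiniteDimensional ℚ L ∧
      ∀ σ : k ≃ₐ[ℚ] k, (∀ a ∈ L, σ a = a) → ρ σ • v = v := by
  obtain ⟨f, -, hf, hv⟩ := hpole
  obtain ⟨L, hL, hLf⟩ := hfin f
  refine ⟨L, hL, fun σ hσ => by_contra fun hne => ?_⟩
  have h := SemilinearAut.ord_smul (ρ σ) v f
  rw [hLf σ hσ] at h
  have := hf _ hne
  omega

/-- Divisors are fixed at a finite level. -/
theorem divisor_fixed_level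
    (hfin : ∀ x : F, ∃ L : IntermediateField ℚ k, FiniteDimensional ℚ L ∧
      ∀ σ : k ≃ₐ[ℚ] k, (∀ a ∈ L, σ a = a) → ρ σ • x = x)
    (hpole : ∀ v : Place k F, ∃ f : F, f ≠ 0 ∧ (∀ w, w ≠ v → 0 ≤ w.ord f) ∧ v.ord f < 0)
    (D : Divisor k F) :
    ∃ L : IntermediateField ℚ k, FiniteDimensional ℚ L ∧
      ∀ σ : k ≃ₐ[ℚ] k, (∀ a ∈ L, σ a = a) → ρ σ • D = D := by
  induction D using Finsupp.induction with
  | zero => exact ⟨⊥, inferInstance, fun σ _ => smul_zero _⟩
  | single_add v n D _ _ ih =>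
    obtain ⟨L, hL, hLD⟩ := ih
    obtain ⟨M, hM, hMv⟩ := place_fixed_level ρ hfin v (hpole v)
    refine ⟨L ⊔ M, inferInstance, fun σ hσ => ?_⟩
    rw [smul_add, SemilinearAut.smul_single, hMv σ fun b hb => hσ b (le_sup_right (a := L) hb),
      hLD σ fun b hb => hσ b (le_sup_left (b := M) hb)]

/-- Classes of degree zero are fixed at a finite level. -/
theorem pic0_fixed_level
    (hfin : ∀ x : F, ∃ L : IntermediateField ℚ k, FiniteDimensional ℚ L ∧
      ∀ σ : k ≃ₐ[ℚ] k, (∀ a ∈ L, σ a = a) → ρ σ • x = x)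
    (hpole : ∀ v : Place k F, ∃ f : F, f ≠ 0 ∧ (∀ w, w ≠ v → 0 ≤ w.ord f) ∧ v.ord f < 0)
    (x : Pic0 k F) :
    ∃ L : IntermediateField ℚ k, FiniteDimensional ℚ L ∧
      ∀ σ : k ≃ₐ[ℚ] k, (∀ a ∈ L, σ a = a) → ρ σ • x = x := by
  obtain ⟨D, rfl⟩ := Pic0.mk_surjective x
  obtain ⟨L, hL, hLD⟩ := divisor_fixed_level ρ hfin hpole (D : Divisor k F)
  refine ⟨L, hL, fun σ hσ => ?_⟩
  rw [SemilinearAut.pic0_smul_mk]
  exact congrArg Pic0.mk (Subtype.ext (by rw [SemilinearAut.coe_degZeroSMulHom, hLD σ hσ]))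

end Semilinear

section Modular

variable {L : Type*} [Field L] [Algebra ℚ L] [Algebra.IsAlgebraic ℚ L]
variable (F₀ : IntermediateField ℚ (LaurentSeries ℚ))

/-- Elements of `laurentBaseChange L F₀` are fixed at a finite level. -/
theorem laurentBaseChange_fixed_level (x : laurentBaseChange L F₀) :
    ∃ E : IntermediateField ℚ L, FiniteDimensional ℚ E ∧
      ∀ σ : L ≃ₐ[ℚ] L, (∀ a ∈ E, σ a = a) → arithmeticGalois F₀ σ • x = x := by
  suffices h : ∃ E : IntermediateField ℚ L, FiniteDimensional ℚ E ∧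
      ∀ σ : L ≃ₐ[ℚ] L, (∀ a ∈ E, σ a = a) →
        coeffMap (σ : L →+* L) (x : LaurentSeries L) = (x : LaurentSeries L) by
    obtain ⟨E, hE, hx⟩ := h
    exact ⟨E, hE, fun σ hσ => Subtype.ext (by rw [coe_arithmeticGalois_smul, hx σ hσ])⟩
  obtain ⟨x, hx⟩ := x
  show ∃ E : IntermediateField ℚ L, FiniteDimensional ℚ E ∧
      ∀ σ : L ≃ₐ[ℚ] L, (∀ a ∈ E, σ a = a) → coeffMap (σ : L →+* L) x = x
  rw [mem_laurentBaseChange_iff] at hx
  induction hx using Subfield.closure_induction with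
  | mem y hy =>
    rcases hy with ⟨a, rfl⟩ | ⟨z, -, rfl⟩
    · refine ⟨IntermediateField.adjoin ℚ {a},
        IntermediateField.adjoin.finiteDimensional
          (Algebra.IsAlgebraic.isAlgebraic a).isIntegral, fun σ hσ => ?_⟩
      rw [coeffMap_algebraMap]
      exact congrArg _ (hσ a (IntermediateField.mem_adjoin_simple_self ℚ a))
    · exact ⟨⊥, inferInstance, fun σ _ => coeffMap_coeffEmb σ z⟩
  | one => exact ⟨⊥, inferInstance, fun σ _ => map_one _⟩
  | add a b _ _ ha hb =>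
    obtain ⟨E, hE, hEa⟩ := ha
    obtain ⟨E', hE', hEb⟩ := hb
    refine ⟨E ⊔ E', inferInstance, fun σ hσ => ?_⟩
    rw [map_add, hEa σ fun c hc => hσ c (le_sup_left (b := E') hc),
      hEb σ fun c hc => hσ c (le_sup_right (a := E) hc)]
  | neg a _ ha =>
    obtain ⟨E, hE, hEa⟩ := ha
    exact ⟨E, hE, fun σ hσ => by rw [map_neg, hEa σ hσ]⟩
  | inv a _ ha =>
    obtain ⟨E, hE, hEa⟩ := ha
    exact ⟨E, hE, fun σ hσ => by rw [map_inv₀, hEa σ hσ]⟩
  | mul a b _ _ ha hb =>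
    obtain ⟨E, hE, hEa⟩ := ha
    obtain ⟨E', hE', hEb⟩ := hb
    refine ⟨E ⊔ E', inferInstance, fun σ hσ => ?_⟩
    rw [map_mul, hEa σ fun c hc => hσ c (le_sup_left (b := E') hc),
      hEb σ fun c hc => hσ c (le_sup_right (a := E) hc)]

end Modular

/-- Classes in `JZero N` are fixed at a finite level, given a pole function at every place. -/
theorem jzero_fixed_level {N : ℕ}
    (hpole : ∀ v : Place (AlgebraicClosure ℚ) (modularFunctionFieldBar N),
      ∃ f : modularFunctionFieldBar N, f ≠ 0 ∧ (∀ w, w ≠ v → 0 ≤ w.ord f) ∧ v.ord f < 0)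
    (x : JZero N) : FixedByFiniteLevel (AlgebraicClosure ℚ) x := by
  haveI : Algebra.IsAlgebraic ℚ (AlgebraicClosure ℚ) := AlgebraicClosure.isAlgebraic ℚ
  obtain ⟨L, hL, h⟩ := pic0_fixed_level (arithmeticGalois (modularFunctionFieldFull N))
    (laurentBaseChange_fixed_level _) hpole x
  exact ⟨L, hL, fun σ hσ => h σ hσ⟩

/-- A finite set of classes, e.g. torsion, is fixed at one level. -/
theorem jzero_finite_fixed_level {N : ℕ}
    (hpole : ∀ v : Place (AlgebraicClosure ℚ) (modularFunctionFieldBar N),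
      ∃ f : modularFunctionFieldBar N, f ≠ 0 ∧ (∀ w, w ≠ v → 0 ≤ w.ord f) ∧ v.ord f < 0)
    {s : Set (JZero N)} (hs : s.Finite) :
    ∃ L : IntermediateField ℚ (AlgebraicClosure ℚ), FiniteDimensional ℚ L ∧
      ∀ σ : AlgebraicClosure ℚ ≃ₐ[ℚ] AlgebraicClosure ℚ, (∀ a ∈ L, σ a = a) →
        ∀ x ∈ s, σ • x = x :=
  exists_level_of_finite hs fun x _ => jzero_fixed_level hpole x

end Fermat.Agent.MW
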