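import Fermat.Agent.MW.KummerLevel
import Fermat.Agent.MW.FFInputs
import Fermat.Agent.MW.Height.Main
import Fermat.Prelude.Def_ModularCurve_ReductionModL
import Mathlib.GroupTheory.Descent

/-!
# Mordell-Weil for `J₀(N)`: the assembly

Finite generation from divisibility, finite `2`-torsion, reductions outside a finite set of primes
which are injective on `2`-torsion and invariant under inertia, and the height.
-/

set_option autoImplicit false

noncomputable section

open AlgebraicCurve ModularCurve Fermat.Agent.Galois Fermat.Agent.FF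

namespace Fermat.Agent.MW

variable (N : ℕ)

local notation "FB" => modularFunctionFieldBar N

/-- The fixed points as classes fixed by the semilinear action. -/
def fixedEquiv : ↥(FixedPoints.addSubgroup GalQ (JZero N)) ≃+
    ↥(Height.fixedClasses (arithmeticGalois (L := Qbar) (modularFunctionFieldFull N))) where
  toFun x := ⟨x, fun σ => x.2 σ⟩
  invFun x := ⟨x, fun σ => x.2 σ⟩
  left_inv _ := rfl
  right_inv _ := rfl
  map_add' _ _ := rfl

/-- Mordell-Weil for `J₀(N)` over `ℚ` from its inputs. -/
theorem fg_fixedPoints_of_inputs [IsFunctionField Qbar FB]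
    (hdiv : ∀ z : JZero N, ∃ y : JZero N, 2 • y = z)
    (htor : {t : JZero N | 2 • t = 0}.Finite) (S : Finset ℕ)
    (hred : ∀ q : ℕ, q.Prime → q ∉ S → ∀ A : ValuationSubring Qbar, A.LiesOverPrime q →
      (∀ σ ∈ A.inertiaSubgroupIn ℚ, ∀ x : JZero N, reductionModL A N (σ • x) = reductionModL A N x) ∧
      ∀ t : JZero N, 2 • t = 0 → reductionModL A N t = 0 → t = 0) :
    AddGroup.FG ↥(FixedPoints.addSubgroup GalQ (JZero N)) := by
  have hweak : (nsmulAddMonoidHom (α := ↥(FixedPoints.addSubgroup GalQ (JZero N))) 2).range.FiniteIndex :=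
    weakMW_of_unramified 2 hdiv htor (fun y => jzero_fixed_level exists_unique_pole y) S
      fun q hq hqS A hA σ hσ y hy =>
        inertia_fix_of_reduction (reductionModL A N) (fun x => (hred q hq hqS A hA).1 σ hσ x)
          (hred q hq hqS A hA).2 hy
  haveI : Algebra.IsAlgebraic ℚ Qbar := AlgebraicClosure.isAlgebraic ℚ
  obtain ⟨h, C, hN, h0, hpar⟩ := Height.exists_height (k := Qbar) (F := FB)
    (g := genusFF Qbar FB) (fun D hD => rrDim_of_large D hD)
    (arithmeticGalois (L := Qbar) (modularFunctionFieldFull N)) (fun σ a => rfl)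
    (laurentBaseChange_fixed_level _)
  set e := fixedEquiv N
  haveI : Northcott (fun x => h (e x)) := by
    refine ⟨fun B => ?_⟩
    exact (hN.finite_le B).preimage e.injective.injOn
  refine AddCommGroup.fg_of_descent' (h := fun x => h (e x)) (C := C) hweak (fun x => h0 _)
    fun x y => ?_
  simp only [map_add, map_sub]
  exact hpar _ _

end Fermat.Agent.MW
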