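import Fermat.Agent.MW.Descent
import Fermat.Agent.FF.ConstExt.Laurent
import Fermat.Agent.HK.Kummer.JZero
import Fermat.Agent.MF.Coeff.FieldK

/-!
# Divisibility of `J₀(N)(ℚ̄)` from divisibility of `J₀(N)(ℂ)`
-/

set_option autoImplicit false
set_option linter.style.haveILetI false

noncomputable section

open AlgebraicCurve ModularCurve

namespace Fermat.Agent.MW

variable (N : ℕ) [NeZero N]

/-- `J₀(N)(ℚ̄)` is divisible by `m` if `J₀(N)(ℂ)` is. -/
theorem exists_nsmul_eq_jzero_of_complex {m : ℕ} [NeZero m]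
    (hdiv : ∀ z : Pic0 ℂ (laurentBaseChange ℂ (modularFunctionFieldFull N)), ∃ y, m • y = z)
    (z : JZero N) : ∃ y : JZero N, m • y = z := by
  letI : Algebra (AlgebraicClosure ℚ) ℂ := (HK.qbarEmb : AlgebraicClosure ℚ →+* ℂ).toAlgebra
  letI := FF.ConstExt.baseChangeAlgebra (AlgebraicClosure ℚ) ℂ (modularFunctionFieldFull N)
  letI := FF.ConstExt.baseChangeAlgebraBase (AlgebraicClosure ℚ) ℂ (modularFunctionFieldFull N)
  haveI := FF.ConstExt.baseChange_isScalarTower_left (AlgebraicClosure ℚ) ℂ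
    (modularFunctionFieldFull N)
  haveI := FF.ConstExt.baseChange_isScalarTower_right (AlgebraicClosure ℚ) ℂ
    (modularFunctionFieldFull N)
  haveI := FF.ConstExt.isConstExt_baseChange (AlgebraicClosure ℚ) ℂ (modularFunctionFieldFull N)
  haveI : FF.IsFunctionField (AlgebraicClosure ℚ) (modularFunctionFieldBar N) :=
    MF.Coeff.isFunctionField_laurentBaseChange _ N
  refine exists_nsmul_eq_descent ℂ (laurentBaseChange ℂ (modularFunctionFieldFull N)) hdiv ?_ z
  have h : {t : Pic0 ℂ (laurentBaseChange ℂ (modularFunctionFieldFull N)) | m • t = 0}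
      = (Pic0.torsion ℂ (laurentBaseChange ℂ (modularFunctionFieldFull N)) m :
        Set (Pic0 ℂ (laurentBaseChange ℂ (modularFunctionFieldFull N)))) := by
    ext t
    rw [SetLike.mem_coe, Pic0.mem_torsion, natCast_zsmul]
    rfl
  rw [h]
  exact Set.finite_coe_iff.1 (HK.finite_torsion_complex N m)

end Fermat.Agent.MW

end
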