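import Fermat.Agent.MW.DivisibleNearby

/-!
# Divisibility of `Pic0` of a uniformised curve over `ℂ`
-/

set_option autoImplicit false

noncomputable section

open Filter Topology AlgebraicCurve

namespace Fermat.Agent.MW

variable {F : Type*} [Field F] [Algebra ℂ F]

namespace Uniformization

variable (u : Uniformization F)

theorem single_sub_single_mem_mulDivisors [HasPrincipalDivisors ℂ F] (hRR : RRWeak ℂ F)
    (hdeg : ∀ w : Place ℂ F, w.deg = 1) {m : ℕ} (hm : 0 < m) {x y : ℂ} (hx : x ∈ u.U)
    (hy : y ∈ u.U) :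
    Finsupp.single (u.pl x) (1 : ℤ) - Finsupp.single (u.pl y) 1 ∈ mulDivisors ℂ F m := by
  refine u.isPreconnected_U.induction₂'
    (fun a b => Finsupp.single (u.pl a) (1 : ℤ) - Finsupp.single (u.pl b) 1 ∈ mulDivisors ℂ F m)
    (fun a ha => ?_) (fun a b c _ _ _ h1 h2 => ?_) hx hy
  · filter_upwards [nhdsWithin_le_nhds (u.eventually_mem_mulDivisors hRR hdeg hm ha)] with b hb
    exact ⟨by simpa using neg_mem hb, hb⟩
  · simpa using add_mem h1 h2

end Uniformization

/-- A function with a simple pole at `v` and neither zero nor pole at the finitely many other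
places of `S`. -/
theorem exists_ord_eq_on_finset (hRR : RRWeak ℂ F) (hdeg : ∀ w : Place ℂ F, w.deg = 1)
    (v τ : Place ℂ F) (hτ : τ ≠ v) (S : Finset (Place ℂ F)) (hS : τ ∉ S) :
    ∃ f : F, f ≠ 0 ∧ v.ord f = -1 ∧ (∀ w ∈ S, w ≠ v → w.ord f = 0) ∧
      ∀ w, w ≠ v → w ≠ τ → 0 ≤ w.ord f := by
  classical
  obtain ⟨c, hc⟩ := hRR
  set k : ℤ := max c 0 + 1 with hk
  have hk1 : c + 1 ≤ k := by have := le_max_left c 0; omega
  have hk0 : 0 ≤ k := by have := le_max_right c 0; omega
  -- the divisor bounding all the functions considered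
  set D : Divisor ℂ F := Finsupp.single τ k with hD
  have hDv : D v = 0 := by simp [hD, Ne.symm hτ]
  suffices h : ∀ T : Finset (Place ℂ F), T ⊆ S → ∃ f : F, f ≠ 0 ∧ v.ord f = -1 ∧
      (∀ w ∈ T, w ≠ v → w.ord f = 0) ∧ ∀ w, w ≠ v → -D w ≤ w.ord f by
    obtain ⟨f, h0, h1, h2, h3⟩ := h S (Finset.Subset.refl _)
    exact ⟨f, h0, h1, h2, fun w hwv hwτ => by
      simpa [hD, Finsupp.single_eq_of_ne hwτ] using h3 w hwv⟩
  intro T hT
  induction T using Finset.induction_on with
  | empty =>
    obtain ⟨f, hf, hw, hv⟩ := hc D v (by rw [hD, Divisor.degree_single, hdeg]; omega)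
    exact ⟨f, hf, by rw [hv, hDv]; ring, by simp, hw⟩
  | insert a T haT ih =>
    obtain ⟨f, hf, hfv, hfT, hfb⟩ := ih fun x hx => hT (Finset.mem_insert_of_mem hx)
    by_cases hav : a = v
    · refine ⟨f, hf, hfv, fun w hw hwv => ?_, hfb⟩
      rcases Finset.mem_insert.mp hw with rfl | hw
      · exact absurd hav hwv
      · exact hfT w hw hwv
    have haτ : a ≠ τ := fun h => hS (h ▸ hT (Finset.mem_insert_self _ _))
    -- a function in the same space without zero at `a`
    obtain ⟨ψ, hψ, hψb, hψa⟩ := hc (D - Finsupp.single a 1) a (by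
      rw [map_sub, hD, Divisor.degree_single, Divisor.degree_single, hdeg, hdeg]; omega)
    have hψa0 : a.ord ψ = 0 := by
      rw [hψa]; simp [hD, Finsupp.single_eq_of_ne haτ]
    have hψD : ∀ w, -D w ≤ w.ord ψ := fun w => by
      by_cases hwa : w = a
      · subst hwa; simp [hψa0, hD, Finsupp.single_eq_of_ne haτ]
      · simpa [Finsupp.single_eq_of_ne hwa] using hψb w hwa
    -- `f + t ψ` is good for all but finitely many `t`
    set g : ℂ → F := fun t => f + algebraMap ℂ F t * ψ with hg
    have hval : ∀ (w : Place ℂ F) (t : ℂ), w.adicValuation (algebraMap ℂ F t * ψ)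
        ≤ w.adicValuation ψ := fun w t => by
      rw [map_mul]
      exact mul_le_of_le_one_left' (adicValuation_algebraMap_le_one w t)
    have hTbad : ∀ w ∈ insert a T, w ≠ v →
        {t : ℂ | ¬ w.adicValuation (g t) = 1}.Subsingleton := by
      intro w hw hwv t₁ ht₁ t₂ ht₂
      have hwτ : w ≠ τ := fun h => hS (h ▸ hT hw)
      have hD0 : D w = 0 := by simp [hD, Finsupp.single_eq_of_ne hwτ]
      have hfle : w.adicValuation f ≤ 1 := by
        rw [← WithZero.exp_zero, adicValuation_le_exp_iff w hf]
        have := hfb w hwv; omega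
      have hψle : w.adicValuation ψ ≤ 1 := by
        rw [← WithZero.exp_zero, adicValuation_le_exp_iff w hψ]
        have := hψD w; omega
      have hle : ∀ t, w.adicValuation (g t) ≤ 1 := fun t =>
        (w.adicValuation.map_add _ _).trans (max_le hfle ((hval w t).trans hψle))
      have hlt : ∀ t, ¬ w.adicValuation (g t) = 1 → w.adicValuation (g t) < 1 := fun t ht =>
        lt_of_le_of_ne (hle t) ht
      by_contra hne
      have hsub : g t₁ - g t₂ = algebraMap ℂ F (t₁ - t₂) * ψ := by
        simp only [hg, map_sub]; ring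
      have hlt' : w.adicValuation (algebraMap ℂ F (t₁ - t₂) * ψ) < 1 :=
        hsub ▸ (w.adicValuation.map_sub _ _).trans_lt (max_lt (hlt _ ht₁) (hlt _ ht₂))
      have hcne : t₁ - t₂ ≠ 0 := sub_ne_zero.mpr hne
      have hψlt : w.adicValuation ψ < 1 := by
        have h1 : ψ = algebraMap ℂ F (t₁ - t₂)⁻¹ * (algebraMap ℂ F (t₁ - t₂) * ψ) := by
          rw [← mul_assoc, ← map_mul, inv_mul_cancel₀ hcne, map_one, one_mul]
        rw [h1, map_mul]
        exact (mul_le_of_le_one_left' (adicValuation_algebraMap_le_one w _)).trans_lt hlt'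
      have hflt : w.adicValuation f < 1 := by
        have h1 : f = g t₁ - algebraMap ℂ F t₁ * ψ := by simp [hg]
        rw [h1]
        exact (w.adicValuation.map_sub _ _).trans_lt
          (max_lt (hlt _ ht₁) ((hval w t₁).trans_lt hψlt))
      rcases Finset.mem_insert.mp hw with hwa | hwT
      · have : w.adicValuation ψ = 1 := by
          rw [hwa, ← WithZero.exp_log (a.adicValuation_ne_zero hψ)]
          have : WithZero.log (a.adicValuation ψ) = 0 := by
            have := hψa0; rw [Place.ord] at this; omega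
          rw [this, WithZero.exp_zero]
        exact hψlt.ne this
      · have : w.adicValuation f = 1 := by
          rw [← WithZero.exp_log (w.adicValuation_ne_zero hf)]
          have : WithZero.log (w.adicValuation f) = 0 := by
            have := hfT w hwT hwv; rw [Place.ord] at this; omega
          rw [this, WithZero.exp_zero]
        exact hflt.ne this
    obtain ⟨t, ht⟩ : ∃ t : ℂ,
        t ∉ ⋃ w ∈ (insert a T).filter (· ≠ v), {t : ℂ | ¬ w.adicValuation (g t) = 1} := by
      apply Set.Finite.exists_notMem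
      refine Set.Finite.biUnion' (Finset.finite_toSet _) fun w hw => ?_
      have := Finset.mem_filter.mp hw
      exact (hTbad w this.1 this.2).finite
    simp only [Finset.mem_filter, Set.mem_iUnion, not_exists, Set.mem_ofPred_eq, not_not] at ht
    have hfv' : v.adicValuation f = WithZero.exp 1 := by
      rw [← WithZero.exp_log (v.adicValuation_ne_zero hf)]
      congr 1
      rw [Place.ord] at hfv; omega
    have hgv : v.adicValuation (g t) = WithZero.exp 1 := by
      rw [← hfv']
      refine Valuation.map_add_eq_of_lt_left _ ((hval v t).trans_lt ?_)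
      refine lt_of_le_of_lt ((adicValuation_le_exp_iff v hψ 0).mpr ?_) ?_
      · have := hψD v; rw [hDv] at this; exact this
      · rw [show v.adicValuation f = WithZero.exp 1 from hfv', WithZero.exp_lt_exp]; norm_num
    have hg0 : g t ≠ 0 := fun h => by
      rw [h, map_zero] at hgv; exact WithZero.exp_ne_zero hgv.symm
    refine ⟨g t, hg0, ?_, fun w hw hwv => ?_, fun w hwv => ?_⟩
    · rw [Place.ord, hgv, WithZero.log_exp]
    · rw [Place.ord, ht w ⟨hw, hwv⟩, WithZero.log_one, neg_zero]
    · rw [← adicValuation_le_exp_iff w hg0]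
      exact (w.adicValuation.map_add _ _).trans (max_le ((adicValuation_le_exp_iff w hf _).mpr
        (hfb w hwv)) ((hval w t).trans ((adicValuation_le_exp_iff w hψ _).mpr (hψD w))))

namespace Uniformization

/-- Divisibility of `Pic0` for a uniformised curve. -/
theorem exists_nsmul_eq (u : Uniformization F) [HasPrincipalDivisors ℂ F] (hRR : RRWeak ℂ F)
    (hdeg : ∀ w : Place ℂ F, w.deg = 1) (hcof : (u.pl '' u.U)ᶜ.Finite) {m : ℕ} (hm : 0 < m)
    (z : Pic0 ℂ F) : ∃ y : Pic0 ℂ F, m • y = z := by
  classical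
  obtain ⟨τ0, hτ0, -⟩ := u.exists_e_eq_one
  set P0 := u.pl τ0
  set M := mulDivisors ℂ F m with hM
  have hP0 : P0 ∉ hcof.toFinset := fun h =>
    hcof.mem_toFinset.mp h (Set.mem_image_of_mem _ hτ0)
  have hrange : ∀ v : Place ℂ F, v ∈ u.pl '' u.U →
      Finsupp.single v (1 : ℤ) - Finsupp.single P0 1 ∈ M := by
    rintro _ ⟨x, hx, rfl⟩
    exact u.single_sub_single_mem_mulDivisors hRR hdeg hm hx hτ0
  -- degree zero divisors supported in the range are in `M`
  have hsupp : ∀ D : Divisor ℂ F, (∀ v, D v ≠ 0 → v ∈ u.pl '' u.U) →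
      D - Finsupp.single P0 (Divisor.degree D) ∈ M := by
    intro D
    induction D using Finsupp.induction with
    | zero => intro _; simp
    | single_add v n D hv hn ih =>
      intro h
      have h1 : v ∈ u.pl '' u.U := h v (by simp [Finsupp.notMem_support_iff.mp hv, hn])
      have h2 : ∀ w, D w ≠ 0 → w ∈ u.pl '' u.U := fun w hw => h w (by
        have hwv : w ≠ v := fun e => hw (e ▸ Finsupp.notMem_support_iff.mp hv)
        simpa [Finsupp.single_eq_of_ne hwv] using hw)
      have h3 : Finsupp.single v n - Finsupp.single P0 n ∈ M := by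
        have := M.zsmul_mem (hrange v h1) n
        simpa [smul_sub, Finsupp.smul_single] using this
      have key := add_mem h3 (ih h2)
      convert key using 1
      rw [map_add, Divisor.degree_single, hdeg, Nat.cast_one, mul_one, Finsupp.single_add]
      abel
  have hall : ∀ v : Place ℂ F, Finsupp.single v (1 : ℤ) - Finsupp.single P0 1 ∈ M := by
    intro v
    by_cases hv : v ∈ u.pl '' u.U
    · exact hrange v hv
    have hvP : P0 ≠ v := fun h => hv (h ▸ Set.mem_image_of_mem _ hτ0)
    obtain ⟨f, hf, hfv, hfS, -⟩ := exists_ord_eq_on_finset hRR hdeg v P0 hvP hcof.toFinset hP0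
    obtain ⟨D, hD, hDdeg⟩ := HasPrincipalDivisors.exists_divisor (K := ℂ) f hf
    have h1 := hsupp (D + Finsupp.single v 1) fun w hw => by
      by_contra hcon
      apply hw
      rw [Finsupp.add_apply, hD w]
      by_cases hwv : w = v
      · subst hwv; rw [hfv, Finsupp.single_eq_same]; rfl
      · rw [hfS w (hcof.mem_toFinset.mpr hcon) hwv, Finsupp.single_eq_of_ne hwv, add_zero]
    rw [map_add, hDdeg, zero_add, Divisor.degree_single, hdeg, Nat.cast_one, mul_one] at h1
    have h2 : D ∈ M := AddSubgroup.mem_sup_left ⟨f, hf, hD⟩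
    convert sub_mem h1 h2 using 1
    abel
  obtain ⟨⟨D, hD⟩, rfl⟩ := Pic0.mk_surjective z
  have hDM : D ∈ M := by
    have h : D - Finsupp.single P0 (Divisor.degree D) ∈ M := by
      clear hD
      induction D using Finsupp.induction with
      | zero => simp
      | single_add v n D _ _ ih =>
        have h3 : Finsupp.single v n - Finsupp.single P0 n ∈ M := by
          have := M.zsmul_mem (hall v) n
          simpa [smul_sub, Finsupp.smul_single] using this
        have key := add_mem h3 ih
        convert key using 1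
        rw [map_add, Divisor.degree_single, hdeg, Nat.cast_one, mul_one, Finsupp.single_add]
        abel
    rw [Divisor.mem_degZero.mp hD] at h
    simpa using h
  obtain ⟨A, hA, B, ⟨E, hE, rfl⟩, hAB⟩ := AddSubgroup.mem_sup.mp hDM
  refine ⟨Pic0.mk ⟨E, hE⟩, ?_⟩
  show ((m • (⟨E, hE⟩ : Divisor.degZero (K := ℂ) (F := F)) :
      Divisor.degZero (K := ℂ) (F := F)) : Pic0 ℂ F) = Pic0.mk ⟨D, hD⟩
  refine (QuotientAddGroup.eq.mpr ?_)
  rw [AddSubgroup.mem_addSubgroupOf]
  convert hA using 1
  simp [← hAB]

end Uniformization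

end Fermat.Agent.MW
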