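import Fermat.Agent.MW.UniformizationMF
import Fermat.Agent.MW.Divisible
import Fermat.Agent.MW.FFInputs
import Fermat.Agent.MW.DescentQbar

/-!
# `J₀(N)(ℚ̄)` is divisible
-/

set_option autoImplicit false
set_option linter.style.haveILetI false

noncomputable section

open AlgebraicCurve ModularCurve

namespace Fermat.Agent.MW

variable (N : ℕ) [NeZero N]

/-- `J₀(N)(ℂ)` is divisible. -/
theorem exists_nsmul_eq_jzero_complex {m : ℕ} (hm : m ≠ 0)
    (z : Pic0 ℂ (laurentBaseChange ℂ (modularFunctionFieldFull N))) :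
    ∃ y, m • y = z := by
  let D := MF.PlaceOrbits.jData (RingHom.id ℂ) N
  haveI : FF.IsFunctionField ℂ (laurentBaseChange ℂ (modularFunctionFieldFull N)) :=
    D.isFunctionField
  exact (mfRealization D).toUniformization.exists_nsmul_eq rrWeak
    deg_eq_one_of_finiteResidue ((FF.finite_ord_pos _).subset (compl_image_pl_subset D))
    (Nat.pos_of_ne_zero hm) z

/-- `J₀(N)(ℚ̄)` is divisible. -/
theorem exists_nsmul_eq_jzero {m : ℕ} (hm : m ≠ 0) (z : JZero N) : ∃ y : JZero N, m • y = z :=
  haveI : NeZero m := ⟨hm⟩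
  exists_nsmul_eq_jzero_of_complex N (exists_nsmul_eq_jzero_complex N hm) z

end Fermat.Agent.MW

end
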