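import Fermat.Agent.FF.ConstExt.Divisor

/-!
# Descending divisibility along a constant field extension

If `Pic0` over the big field is divisible with finite torsion and classes with finite orbit under
the automorphisms fixing the small field descend, then `Pic0` over the small field is divisible.
-/

set_option autoImplicit false

noncomputable section

open AlgebraicCurve

namespace Fermat.Agent.MW

/-- The abstract form. -/
theorem exists_nsmul_eq_of_finite_orbit {J J' : Type*} [AddCommGroup J] [AddCommGroup J']
    (ι : J →+ J') (hι : Function.Injective ι) (Φ : Set (J' →+ J'))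
    (hfix : ∀ φ ∈ Φ, ∀ x, φ (ι x) = ι x)
    (hdesc : ∀ y : J', {z | ∃ φ ∈ Φ, φ y = z}.Finite → y ∈ Set.range ι)
    {n : ℕ} (hdiv : ∀ z : J', ∃ y, n • y = z) (htor : {t : J' | n • t = 0}.Finite) (z : J) :
    ∃ y : J, n • y = z := by
  obtain ⟨y, hy⟩ := hdiv (ι z)
  obtain ⟨x, hx⟩ := hdesc y ((htor.image fun t => y + t).subset (by
    rintro _ ⟨φ, hφ, rfl⟩
    refine ⟨φ y - y, ?_, add_sub_cancel _ _⟩
    show n • (φ y - y) = 0
    rw [smul_sub, ← map_nsmul, hy, hfix φ hφ, sub_self]))
  exact ⟨x, hι (by rw [map_nsmul, hx, hy])⟩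

/-- Finiteness of the torsion over the small field. -/
theorem finite_torsion_of_injective {J J' : Type*} [AddCommGroup J] [AddCommGroup J']
    (ι : J →+ J') (hι : Function.Injective ι) {n : ℕ} (htor : {t : J' | n • t = 0}.Finite) :
    {t : J | n • t = 0}.Finite :=
  (htor.preimage hι.injOn).subset fun t (ht : n • t = 0) => by
    show n • ι t = 0
    rw [← map_nsmul, ht, map_zero]

end Fermat.Agent.MW
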