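import Fermat.Agent.MW.DivisibleBasic
import Mathlib.Analysis.Calculus.InverseFunctionTheorem.FDeriv
import Mathlib.Analysis.Calculus.FDeriv.Analytic
import Mathlib.Analysis.Calculus.IteratedDeriv.Lemmas
import Mathlib.Analysis.Calculus.Deriv.Pow
import Mathlib.Analysis.Analytic.Order
import Mathlib.Analysis.Complex.RemovableSingularity

/-!
# Local divisibility in `Pic0`

For `r` near `r0` the divisor `(pl r) - (pl r0)` is `m` times a degree zero divisor modulo
principal divisors.  The proof moves `m • E`, `E` a sum of distinct unramified points of large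
degree, by the inverse function theorem.
-/

set_option autoImplicit false

noncomputable section

open Filter Topology AlgebraicCurve

namespace Fermat.Agent.MW

section Algebra

variable {K F : Type*} [Field K] [Field F] [Algebra K F]

/-- Divisors which are `m` times a degree zero divisor modulo principal ones. -/
def mulDivisors (K F : Type*) [Field K] [Field F] [Algebra K F] (m : ℕ) :
    AddSubgroup (Divisor K F) :=
  Divisor.principal (K := K) (F := F) ⊔
    (Divisor.degZero (K := K) (F := F)).map (nsmulAddMonoidHom m)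

theorem adicValuation_le_exp_iff (v : Place K F) {f : F} (hf : f ≠ 0) (d : ℤ) :
    v.adicValuation f ≤ WithZero.exp d ↔ -d ≤ v.ord f := by
  have h : v.adicValuation f = WithZero.exp (-v.ord f) := by
    rw [Place.ord, neg_neg, WithZero.exp_log (v.adicValuation_ne_zero hf)]
  rw [h, WithZero.exp_le_exp]
  omega

theorem adicValuation_algebraMap_le_one (v : Place K F) (c : K) :
    v.adicValuation (algebraMap K F c) ≤ 1 := by
  rw [← Place.coe_algebraMap v c, v.adicValuation_coe]
  exact v.heightOneSpectrum.intValuation_le_one _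

theorem eq_zero_of_nonneg_of_degree_eq_zero (hdeg : ∀ w : Place K F, w.deg = 1)
    {A : Divisor K F} (h0 : ∀ w, 0 ≤ A w) (hd : Divisor.degree A = 0) : A = 0 := by
  ext w
  have hsum : Divisor.degree A = ∑ v ∈ A.support, A v := by
    simp [Divisor.degree, Finsupp.sum, hdeg]
  rw [hsum, Finset.sum_eq_zero_iff_of_nonneg (fun v _ => h0 v)] at hd
  by_cases hw : w ∈ A.support
  · simpa using hd w hw
  · simpa using hw

end Algebra

section Analysis

/-- Triangularity: analytic functions of order `0, 1, ..., N-1` have independent jets. -/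
theorem jets_independent {N : ℕ} {g : Fin N → ℂ → ℂ} {a : ℂ}
    (hg : ∀ o, AnalyticAt ℂ (g o) a) (hord : ∀ o, analyticOrderAt (g o) a = ((o : ℕ) : ℕ∞))
    {x : Fin N → ℂ} (h : ∀ k : ℕ, k < N → ∑ o, x o * iteratedDeriv k (g o) a = 0) :
    x = 0 := by
  funext o
  induction o using WellFoundedLT.induction with
  | _ o ih =>
    have hzero : ∀ o' : Fin N, o < o' → iteratedDeriv (o : ℕ) (g o') a = 0 := fun o' hoo' =>
      (natCast_le_analyticOrderAt_iff_iteratedDeriv_eq_zero (hg o')).mp (hord o').ge _ hoo'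
    have hne : iteratedDeriv (o : ℕ) (g o) a ≠ 0 := by
      intro hz
      have hle : (((o : ℕ) + 1 : ℕ) : ℕ∞) ≤ analyticOrderAt (g o) a := by
        rw [natCast_le_analyticOrderAt_iff_iteratedDeriv_eq_zero (hg o)]
        intro i hi
        rcases Nat.lt_succ_iff_lt_or_eq.mp hi with hlt | rfl
        · exact (natCast_le_analyticOrderAt_iff_iteratedDeriv_eq_zero (hg o)).mp
            (hord o).ge _ hlt
        · exact hz
      rw [hord o, Nat.cast_le] at hle
      omega
    have hk := h o o.2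
    rw [Finset.sum_eq_single o] at hk
    · exact (mul_eq_zero.mp hk).resolve_right hne
    · intro o' _ hne'
      rcases lt_or_gt_of_ne hne' with hlt | hgt
      · rw [ih o' hlt]; simp
      · rw [hzero o' hgt, mul_zero]
    · simp

variable {E : Type*} [NormedAddCommGroup E] [NormedSpace ℂ E] {J : Type*} [Fintype J]

theorem hasStrictFDerivAt_affineComb (x : J → E →L[ℂ] ℂ) (π : E →L[ℂ] ℂ) {g0 : ℂ → ℂ}
    {g : J → ℂ → ℂ} {p : E} {c : ℂ} (hg0 : AnalyticAt ℂ g0 c)
    (hg : ∀ j, AnalyticAt ℂ (g j) c) (hπ : π p = c) (hx : ∀ j, x j p = 0) :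
    HasStrictFDerivAt (fun q => g0 (π q) + ∑ j, x j q * g j (π q))
      (deriv g0 c • π + ∑ j, g j c • x j) p := by
  subst hπ
  have key : ∀ {f : ℂ → ℂ}, AnalyticAt ℂ f (π p) →
      HasStrictFDerivAt (fun q => f (π q)) (deriv f (π p) • π) p := fun {f} hf =>
    HasStrictDerivAt.comp_hasStrictFDerivAt p hf.hasStrictDerivAt π.hasStrictFDerivAt
  refine (key hg0).add (HasStrictFDerivAt.fun_sum fun j _ => ?_)
  have h1 := (x j).hasStrictFDerivAt.fun_mul (x := p) (key (hg j))
  convert! h1 using 1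
  ext v
  simp [hx j]

end Analysis

namespace Uniformization

variable {F : Type*} [Field F] [Algebra ℂ F] (u : Uniformization F)

theorem exists_ext {f : F} (hf : f ≠ 0) {a : ℂ} (ha : a ∈ u.U) {k : ℕ}
    (h : 0 ≤ (k : ℤ) + (u.e a : ℤ) * (u.pl a).ord f) :
    ∃ g : ℂ → ℂ, AnalyticAt ℂ g a ∧
      g =ᶠ[𝓝[≠] a] (fun z => (z - a) ^ k * u.val f z) ∧
      analyticOrderAt g a = (((k : ℤ) + (u.e a : ℤ) * (u.pl a).ord f).toNat : ℕ∞) := by
  have hmer : MeromorphicAt (fun z => (z - a) ^ k * u.val f z) a :=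
    ((analyticAt_id.sub analyticAt_const).pow k).meromorphicAt.mul (u.meromorphicAt_val f a ha)
  have hord : meromorphicOrderAt (fun z => (z - a) ^ k * u.val f z) a
      = (((k : ℤ) + (u.e a : ℤ) * (u.pl a).ord f : ℤ) : WithTop ℤ) := by
    rw [fun_meromorphicOrderAt_mul
        (f := fun z => (z - a) ^ k) ((analyticAt_id.sub analyticAt_const).pow k).meromorphicAt
        (u.meromorphicAt_val f a ha),
      fun_meromorphicOrderAt_pow_id_sub_const, u.order_val f hf a ha, WithTop.coe_add]
    rfl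
  obtain ⟨g, hg, hfg⟩ := hmer.meromorphicOrderAt_nonneg_iff.mp
    (by rw [hord]; exact WithTop.coe_nonneg.mpr h)
  refine ⟨g, hg, hfg.symm, ?_⟩
  have h2 := meromorphicOrderAt_congr hfg
  rw [hord, hg.meromorphicOrderAt_eq] at h2
  generalize hN : (k : ℤ) + (u.e a : ℤ) * (u.pl a).ord f = N at h h2 ⊢
  cases hA : analyticOrderAt g a with
  | top => rw [hA] at h2; simp at h2
  | coe n =>
    rw [hA, ENat.map_natCast, WithTop.coe_eq_coe] at h2
    rw [h2]
    simp

/-- Order estimate from a regularised function. -/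
theorem le_mul_ord {f : F} (hf : f ≠ 0) {a q : ℂ} (hq : q ∈ u.U) {k j : ℕ} {h : ℂ → ℂ}
    (han : AnalyticAt ℂ h q) (heq : h =ᶠ[𝓝[≠] q] fun z => (z - a) ^ k * u.val f z)
    (hj : ∀ i < j, iteratedDeriv i h q = 0) :
    (j : ℤ) ≤ (if q = a then (k : ℤ) else 0) + (u.e q : ℤ) * (u.pl q).ord f := by
  have hle := (natCast_le_analyticOrderAt_iff_iteratedDeriv_eq_zero han).mpr hj
  have hpow : MeromorphicAt (fun z => (z - a) ^ k) q :=
    ((analyticAt_id.sub analyticAt_const).pow k).meromorphicAt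
  have horder : meromorphicOrderAt (fun z => (z - a) ^ k) q
      = (((if q = a then (k : ℤ) else 0) : ℤ) : WithTop ℤ) := by
    split_ifs with hqa
    · subst hqa
      exact fun_meromorphicOrderAt_pow_id_sub_const
    · rw [WithTop.coe_zero, ← tendsto_ne_zero_iff_meromorphicOrderAt_eq_zero hpow]
      refine ⟨(q - a) ^ k, pow_ne_zero _ (sub_ne_zero.mpr hqa), ?_⟩
      exact ((continuous_id.sub continuous_const).pow k).continuousAt.tendsto.mono_left
        nhdsWithin_le_nhds
  have h2 : meromorphicOrderAt h q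
      = (((if q = a then (k : ℤ) else 0) + (u.e q : ℤ) * (u.pl q).ord f : ℤ) : WithTop ℤ) := by
    rw [meromorphicOrderAt_congr heq,
      fun_meromorphicOrderAt_mul hpow (u.meromorphicAt_val f q hq), horder,
      u.order_val f hf q hq, WithTop.coe_add]
  rw [han.meromorphicOrderAt_eq] at h2
  cases hA : analyticOrderAt h q with
  | top => rw [hA, ENat.map_top] at h2; exact absurd h2.symm WithTop.coe_ne_top
  | coe n =>
    rw [hA, ENat.map_natCast, WithTop.coe_eq_coe] at h2
    rw [hA] at hle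
    have hjn : j ≤ n := by exact_mod_cast hle
    omega

theorem exists_good_points (hRR : RRWeak ℂ F) (hdeg : ∀ w : Place ℂ F, w.deg = 1)
    (P : Place ℂ F) (n : ℕ) :
    ∃ a : Fin n → ℂ, (∀ i, a i ∈ u.U ∧ u.e (a i) = 1 ∧ u.pl (a i) ≠ P) ∧
      Function.Injective fun i => u.pl (a i) := by
  classical
  set G : Set (Place ℂ F) := {Q | ∃ τ ∈ u.U, u.e τ = 1 ∧ u.pl τ = Q ∧ Q ≠ P}
  have hG : G.Infinite := by
    intro hfin
    obtain ⟨τ, hτ, he⟩ := u.exists_e_eq_one
    have h1 : ∀ᶠ q in 𝓝[≠] τ, ∀ Q ∈ insert P hfin.toFinset, u.pl q ≠ Q :=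
      (Finset.eventually_all _).mpr fun Q _ => u.eventually_pl_ne hRR hdeg Q hτ
    have h2 : ∀ᶠ q in 𝓝[≠] τ, q ∈ u.U ∧ u.e q = 1 :=
      nhdsWithin_le_nhds ((u.isOpen_U.eventually_mem hτ).and (u.eventually_e_eq_one τ hτ he))
    obtain ⟨q, h1, h2, h3⟩ := (h1.and h2).exists
    refine h1 (u.pl q) (Finset.mem_insert_of_mem ?_) rfl
    exact hfin.mem_toFinset.mpr ⟨q, h2, h3, rfl, h1 P (Finset.mem_insert_self _ _)⟩
  choose a ha using fun i : Fin n => (hG.natEmbedding G i).2
  refine ⟨a, fun i => ⟨(ha i).1, (ha i).2.1, (ha i).2.2.1 ▸ (ha i).2.2.2⟩, fun i j hij => ?_⟩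
  have h : ((hG.natEmbedding G i : G) : Place ℂ F) = (hG.natEmbedding G j : G) :=
    (ha i).2.2.1.symm.trans (hij.trans (ha j).2.2.1)
  exact Fin.ext ((hG.natEmbedding G).injective (Subtype.ext h))

end Uniformization

end Fermat.Agent.MW
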