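import Fermat.Agent.MW.DivisibleLocal

/-!
# Divisibility of nearby points
-/

set_option autoImplicit false

noncomputable section

open Filter Topology AlgebraicCurve

namespace Fermat.Agent.MW.Uniformization

variable {F : Type*} [Field F] [Algebra ℂ F] (u : Uniformization F)

/-- Parameters: coefficients of the deformed function, moved zeros, moved point. -/
local notation "Prm" n ";" m =>
  ((Option (Fin n × Fin (m - 1)) → ℂ) × (Fin n → ℂ) × ℂ)

theorem eventually_mem_mulDivisors [HasPrincipalDivisors ℂ F] (hRR : RRWeak ℂ F)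
    (hdeg : ∀ w : Place ℂ F, w.deg = 1) {m : ℕ} (hm : 0 < m) {r0 : ℂ} (hr0 : r0 ∈ u.U) :
    ∀ᶠ r in 𝓝 r0,
      Finsupp.single (u.pl r) (1 : ℤ) - Finsupp.single (u.pl r0) 1 ∈ mulDivisors ℂ F m := by
  classical
  obtain ⟨c, hc⟩ := hRR
  have hRR : RRWeak ℂ F := ⟨c, hc⟩
  set n : ℕ := c.toNat + 1 with hn
  obtain ⟨a, ha, hinj⟩ := u.exists_good_points hRR hdeg (u.pl r0) n
  set R0 := u.pl r0 with hR0
  set e0 := u.e r0 with he0
  set E : Divisor ℂ F := ∑ i, Finsupp.single (u.pl (a i)) 1 with hE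
  have hE0 : ∀ w, 0 ≤ E w := fun w => by
    rw [hE, Finsupp.finsetSum_apply]
    exact Finset.sum_nonneg fun i _ => by rw [Finsupp.single_apply]; split_ifs <;> omega
  have hEa : ∀ i, E (u.pl (a i)) = 1 := fun i => by
    rw [hE, Finsupp.finsetSum_apply, Finset.sum_eq_single i]
    · exact Finsupp.single_eq_same
    · exact fun j _ hji => Finsupp.single_eq_of_ne (fun h => hji (hinj h.symm))
    · simp
  have hER : E R0 = 0 := by
    rw [hE, Finsupp.finsetSum_apply]
    exact Finset.sum_eq_zero fun i _ => Finsupp.single_eq_of_ne (Ne.symm (ha i).2.2)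
  have hEdeg : Divisor.degree E = n := by
    rw [hE, map_sum]
    simp [hdeg]
  have hcn : c ≤ (n : ℤ) := by have := Int.self_le_toNat c; omega
  set E' : Divisor ℂ F := m • E + Finsupp.single R0 1 with hE'
  have hEdef : ∀ w, E' w = m * E w + Finsupp.single R0 (1 : ℤ) w := fun w => by
    simp [hE']
  have hR1 : ∀ w, 0 ≤ Finsupp.single R0 (1 : ℤ) w := fun w => by
    rw [Finsupp.single_apply]; split_ifs <;> omega
  -- the polar parts
  have hA : ∀ j : Option (Fin n × Fin (m - 1)), ∃ f : F, f ≠ 0 ∧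
      (∀ w, -E' w ≤ w.ord f) ∧
      (match j with
        | none => R0.ord f = -1 ∧ ∀ i, -1 ≤ (u.pl (a i)).ord f
        | some (i, o) => (u.pl (a i)).ord f = (o : ℤ) - m ∧ 0 ≤ R0.ord f ∧
            ∀ i', i' ≠ i → -1 ≤ (u.pl (a i')).ord f) := by
    rintro (_ | ⟨i, o⟩)
    · obtain ⟨f, hf, hw, hv⟩ := hc E R0 (hEdeg ▸ hcn)
      rw [hER] at hv
      refine ⟨f, hf, fun w => ?_, ⟨by omega, fun i => ?_⟩⟩
      · rw [hEdef]
        have h0 := hE0 w
        have h1 := hR1 w
        by_cases hw0 : w = R0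
        · rw [hw0, hER, Finsupp.single_eq_same, hv]; omega
        · have := hw w hw0
          nlinarith
      · have := hw (u.pl (a i)) (ha i).2.2
        rw [hEa i] at this; exact this
    · set D := E + Finsupp.single (u.pl (a i)) ((m : ℤ) - o - 2) with hD
      have ho := o.2
      have hDdeg : c ≤ Divisor.degree D := by
        rw [hD, map_add, hEdeg, Divisor.degree_single, hdeg]
        omega
      obtain ⟨f, hf, hw, hv⟩ := hc D (u.pl (a i)) hDdeg
      have hDne : ∀ w, w ≠ u.pl (a i) → D w = E w := fun w hw' => by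
        simp [hD, Finsupp.single_eq_of_ne hw']
      have hDi : D (u.pl (a i)) = m - o - 1 := by simp [hD, hEa i]; ring
      refine ⟨f, hf, fun w => ?_, ⟨by rw [hv, hDi]; ring, ?_, fun i' hi' => ?_⟩⟩
      · rw [hEdef]
        have h0 := hE0 w
        have h1 := hR1 w
        by_cases hw0 : w = u.pl (a i)
        · rw [hw0, hv, hDi, hEa i]; have := hR1 (u.pl (a i)); omega
        · have h2 := hw w hw0
          rw [hDne w hw0] at h2
          nlinarith
      · have := hw R0 (Ne.symm (ha i).2.2)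
        rw [hDne R0 (Ne.symm (ha i).2.2), hER] at this; simpa using this
      · have hne : u.pl (a i') ≠ u.pl (a i) := fun h => hi' (hinj h)
        have := hw (u.pl (a i')) hne
        rw [hDne _ hne, hEa i'] at this; exact this
  choose φ hφ0 hφE hφ using hA
  -- regularisations near the points `a i`
  have hB : ∀ (i : Fin n) (j : Option (Fin n × Fin (m - 1))), ∃ g : ℂ → ℂ,
      AnalyticAt ℂ g (a i) ∧
      g =ᶠ[𝓝[≠] (a i)] (fun z => (z - a i) ^ m * u.val (φ j) z) ∧
      (match j with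
        | some (i', o) => (i' = i → analyticOrderAt g (a i) = ((o : ℕ) : ℕ∞)) ∧
            (i' ≠ i → ∀ k, k + 1 < m → iteratedDeriv k g (a i) = 0)
        | none => ∀ k, k + 1 < m → iteratedDeriv k g (a i) = 0) := by
    intro i j
    obtain ⟨g, hg, hgeq, hgord⟩ := u.exists_ext (hφ0 j) (ha i).1 (k := m) (by
      have := hφE j (u.pl (a i))
      rw [hEdef, hEa i, Finsupp.single_eq_of_ne (ha i).2.2] at this
      rw [(ha i).2.1]; omega)
    rw [(ha i).2.1, Nat.cast_one, one_mul] at hgord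
    have hsmall : -1 ≤ (u.pl (a i)).ord (φ j) → ∀ k, k + 1 < m → iteratedDeriv k g (a i) = 0 := by
      intro h k hk
      refine (natCast_le_analyticOrderAt_iff_iteratedDeriv_eq_zero hg (n := m - 1)).mp ?_ k
        (by omega)
      rw [hgord, Nat.cast_le]
      have : -1 ≤ (u.pl (a i)).ord (φ j) := h
      omega
    refine ⟨g, hg, hgeq, ?_⟩
    rcases j with _ | ⟨i', o⟩
    · exact hsmall ((hφ none).2 i)
    · refine ⟨fun h => ?_, fun h => hsmall ((hφ (some (i', o))).2.2 i (Ne.symm h))⟩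
      subst h
      have h2 : (u.pl (a i')).ord (φ (some (i', o))) = (o : ℤ) - m := (hφ (some (i', o))).1
      rw [hgord, h2]
      simp
  choose s hs hseq hsval using hB
  have hT : ∀ j : Option (Fin n × Fin (m - 1)), ∃ g : ℂ → ℂ,
      AnalyticAt ℂ g r0 ∧ g =ᶠ[𝓝[≠] r0] (fun z => (z - r0) ^ e0 * u.val (φ j) z) ∧
      (match j with | none => g r0 ≠ 0 | some _ => g r0 = 0) := by
    intro j
    obtain ⟨g, hg, hgeq, hgord⟩ := u.exists_ext (hφ0 j) hr0 (k := e0) (by
      have := hφE j R0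
      rw [hEdef, hER, Finsupp.single_eq_same] at this
      nlinarith)
    rw [← he0, ← hR0] at hgord
    refine ⟨g, hg, hgeq, ?_⟩
    rcases j with _ | ⟨i, o⟩
    · have h1 : R0.ord (φ none) = -1 := (hφ none).1
      rw [h1] at hgord
      simp only [mul_neg, mul_one, add_neg_cancel, Int.toNat_zero, Nat.cast_zero] at hgord
      exact (analyticOrderAt_eq_zero.mp hgord).resolve_left (not_not.mpr hg)
    · have h1 : 0 ≤ R0.ord (φ (some (i, o))) := (hφ (some (i, o))).2.1
      have he : 0 < e0 := u.e_pos r0 hr0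
      refine apply_eq_zero_of_analyticOrderAt_ne_zero ?_
      rw [hgord]
      have : (0 : ℤ) ≤ (e0 : ℤ) * R0.ord (φ (some (i, o))) := by positivity
      simp only [ne_eq, Nat.cast_eq_zero]
      omega
  choose t ht hteq htval using hT
  -- the equations
  set h0 : Fin n → ℂ → ℂ := fun i z => (z - a i) ^ m with hh0
  have hh0an : ∀ i z, AnalyticAt ℂ (h0 i) z := fun i z =>
    (analyticAt_id.sub analyticAt_const).pow m
  have hh0d : ∀ i k, iteratedDeriv k (h0 i) (a i) = if k = m then (m.factorial : ℂ) else 0 := by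
    intro i k
    rw [hh0, iteratedDeriv_comp_sub_const (f := fun z => z ^ m) (n := k) (s := a i)]
    rw [show ((fun z : ℂ => z ^ m) = (· ^ m)) from rfl]
    simp only [iteratedDeriv_pow, sub_self]
    rcases lt_trichotomy k m with hk | hk | hk
    · rw [zero_pow (by omega), mul_zero, if_neg hk.ne]
    · subst hk; simp [Nat.descFactorial_self]
    · rw [Nat.descFactorial_eq_zero_iff_lt.mpr hk, if_neg hk.ne']; simp
  let X : Option (Fin n × Fin (m - 1)) → (Prm n ; m) →L[ℂ] ℂ := fun j =>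
    (ContinuousLinearMap.proj j).comp (ContinuousLinearMap.fst ℂ _ _)
  let Q : Fin n → (Prm n ; m) →L[ℂ] ℂ := fun i =>
    (ContinuousLinearMap.proj i).comp
      ((ContinuousLinearMap.fst ℂ _ _).comp (ContinuousLinearMap.snd ℂ _ _))
  let Rr : (Prm n ; m) →L[ℂ] ℂ :=
    (ContinuousLinearMap.snd ℂ _ _).comp (ContinuousLinearMap.snd ℂ _ _)
  let G : (Prm n ; m) → (Fin n × Fin m → ℂ) × ℂ × ℂ := fun p =>
    (fun ik => iteratedDeriv ik.2 (h0 ik.1) (Q ik.1 p)
        + ∑ j, X j p * iteratedDeriv ik.2 (s ik.1 j) (Q ik.1 p),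
      (Rr p - r0) ^ e0 + ∑ j, X j p * t j (Rr p), Rr p)
  let L : (Prm n ; m) →L[ℂ] (Fin n × Fin m → ℂ) × ℂ × ℂ :=
    (ContinuousLinearMap.pi fun ik =>
        deriv (iteratedDeriv ik.2 (h0 ik.1)) (a ik.1) • Q ik.1
          + ∑ j, iteratedDeriv ik.2 (s ik.1 j) (a ik.1) • X j).prod
      ((deriv (fun z => (z - r0) ^ e0) r0 • Rr + ∑ j, t j r0 • X j).prod Rr)
  set p0 : Prm n ; m := (0, a, r0) with hp0
  have hstrict : HasStrictFDerivAt G L p0 := by
    refine HasStrictFDerivAt.prodMk (hasStrictFDerivAt_pi.mpr fun ik => ?_)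
      (HasStrictFDerivAt.prodMk ?_ Rr.hasStrictFDerivAt)
    · refine hasStrictFDerivAt_affineComb X (Q ik.1) (g0 := iteratedDeriv ik.2 (h0 ik.1))
        (g := fun j => iteratedDeriv ik.2 (s ik.1 j)) ?_ (fun j => ?_) rfl fun j => rfl
      · rw [iteratedDeriv_eq_iterate]; exact (hh0an _ _).iterated_deriv _
      · rw [iteratedDeriv_eq_iterate]; exact (hs _ _).iterated_deriv _
    · exact hasStrictFDerivAt_affineComb X Rr (g0 := fun z => (z - r0) ^ e0) (g := t)
        ((analyticAt_id.sub analyticAt_const).pow e0) ht rfl fun j => rfl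
  have hL : Function.Injective L := by
    rw [injective_iff_map_eq_zero]
    rintro ⟨x, q, δ⟩ hv
    simp only [L, ContinuousLinearMap.prod_apply, Prod.mk_eq_zero] at hv
    obtain ⟨hv1, hv2, hv3⟩ := hv
    have hδ : δ = 0 := hv3
    subst hδ
    simp [Rr, X, Fintype.sum_option] at hv2
    have hxnone : x none = 0 := by
      have hz : ∀ io : Fin n × Fin (m - 1), t (some io) r0 = 0 := fun io => htval (some io)
      simp [hz] at hv2
      exact hv2.resolve_left (htval none)
    have hrow : ∀ (i : Fin n) (k : Fin m),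
        deriv (iteratedDeriv k (h0 i)) (a i) * q i
          + ∑ j, x j * iteratedDeriv k (s i j) (a i) = 0 := by
      intro i k
      have := congrFun hv1 (i, k)
      simpa [Q, X, mul_comm] using this
    have hderiv : ∀ (i : Fin n) (k : ℕ),
        deriv (iteratedDeriv k (h0 i)) (a i) = if k + 1 = m then (m.factorial : ℂ) else 0 := by
      intro i k
      rw [← iteratedDeriv_succ, hh0d]
    have hx : ∀ (i : Fin n), (fun o : Fin (m - 1) => x (some (i, o))) = 0 := by
      intro i
      refine jets_independent (g := fun o => s i (some (i, o))) (fun o => hs _ _)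
        (fun o => (hsval i (some (i, o))).1 rfl) fun k hk => ?_
      have h1 := hrow i ⟨k, by omega⟩
      rw [hderiv, if_neg (by simp only; omega), zero_mul, zero_add, Fintype.sum_option, hxnone,
        zero_mul, zero_add, Fintype.sum_prod_type, Finset.sum_eq_single i] at h1
      · exact h1
      · intro i' _ hi'
        refine Finset.sum_eq_zero fun o _ => ?_
        rw [(hsval i (some (i', o))).2 hi' k (by omega), mul_zero]
      · simp
    have hx0 : x = 0 := by
      funext j
      rcases j with _ | ⟨i, o⟩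
      · exact hxnone
      · exact congrFun (hx i) o
    have hq : q = 0 := by
      funext i
      have h1 := hrow i ⟨m - 1, by omega⟩
      rw [hderiv, if_pos (by simp only; omega)] at h1
      simpa [hx0, Nat.factorial_ne_zero] using h1
    rw [hx0, hq]; rfl
  have hLsurj : (L : (Prm n ; m) →ₗ[ℂ] (Fin n × Fin m → ℂ) × ℂ × ℂ).range = ⊤ := by
    refine LinearMap.range_eq_top.mpr ((LinearMap.injective_iff_surjective_of_finrank_eq_finrank
      (f := (L : (Prm n ; m) →ₗ[ℂ] (Fin n × Fin m → ℂ) × ℂ × ℂ)) ?_).mp hL)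
    obtain ⟨M, rfl⟩ := Nat.exists_eq_succ_of_ne_zero hm.ne'
    simp only [Module.finrank_prod, Module.finrank_pi, Module.finrank_self, Fintype.card_option,
      Fintype.card_prod, Fintype.card_fin, Nat.succ_eq_add_one, Nat.add_sub_cancel]
    ring
  -- the neighbourhood
  have hloc : ∀ i, ∃ W : Set ℂ, IsOpen W ∧ a i ∈ W ∧ W ⊆ u.U ∧
      ∀ z ∈ W, u.e z = 1 ∧ (∀ j, AnalyticAt ℂ (s i j) z) ∧
        (z ≠ a i → ∀ j, s i j z = (z - a i) ^ m * u.val (φ j) z) := by
    intro i
    have h : ∀ᶠ z in 𝓝 (a i), z ∈ u.U ∧ u.e z = 1 ∧ (∀ j, AnalyticAt ℂ (s i j) z) ∧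
        (z ≠ a i → ∀ j, s i j z = (z - a i) ^ m * u.val (φ j) z) :=
      (u.isOpen_U.eventually_mem (ha i).1).and
        ((u.eventually_e_eq_one _ (ha i).1 (ha i).2.1).and
          ((eventually_all.mpr fun j => (hs i j).eventually_analyticAt).and
            (eventually_nhdsWithin_iff.mp (eventually_all.mpr fun j => hseq i j))))
    obtain ⟨W, hW, hWo, hWa⟩ := _root_.eventually_nhds_iff.mp h
    exact ⟨W, hWo, hWa, fun z hz => (hW z hz).1, fun z hz => (hW z hz).2⟩
  choose W hWo hWa hWU hW using hloc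
  obtain ⟨WR, hWR, hWRo, hWRr⟩ : ∃ WR : Set ℂ, (∀ z ∈ WR, z ∈ u.U ∧
      (∀ j, AnalyticAt ℂ (t j) z) ∧ (z ≠ r0 → ∀ j, t j z = (z - r0) ^ e0 * u.val (φ j) z)) ∧
      IsOpen WR ∧ r0 ∈ WR :=
    _root_.eventually_nhds_iff.mp ((u.isOpen_U.eventually_mem hr0).and
      ((eventually_all.mpr fun j => (ht j).eventually_analyticAt).and
        (eventually_nhdsWithin_iff.mp (eventually_all.mpr fun j => hteq j))))
  set i0 : Fin n := ⟨0, by omega⟩
  have hcontQ : ∀ i, Tendsto (fun p => Q i p) (𝓝 p0) (𝓝 (a i)) := fun i => (Q i).continuous.tendsto p0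
  have hcontR : Tendsto (fun p => Rr p) (𝓝 p0) (𝓝 r0) := Rr.continuous.tendsto p0
  have hV : ∀ᶠ p in 𝓝 p0, (∀ i, Q i p ∈ W i) ∧ Rr p ∈ WR ∧
      (∀ i i', i ≠ i' → u.pl (Q i p) ≠ u.pl (Q i' p)) ∧
      (∀ i, u.pl (Q i p) ≠ u.pl (Rr p)) ∧
      iteratedDeriv m (h0 i0) (a i0) + ∑ j, X j p * iteratedDeriv m (s i0 j) (a i0) ≠ 0 := by
    refine (eventually_all.mpr fun i => (hcontQ i).eventually ((hWo i).mem_nhds (hWa i))).and
      ((hcontR.eventually (hWRo.mem_nhds hWRr)).and ?_)
    refine (eventually_all.mpr fun i => eventually_all.mpr fun i' => ?_).and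
      ((eventually_all.mpr fun i => ?_).and ?_)
    · by_cases hii : i = i'
      · exact Eventually.of_forall fun p h => absurd hii h
      · exact (((hcontQ i).prodMk (hcontQ i')).eventually
          (u.eventually_pl_ne_pl hRR hdeg (ha i).1 (ha i').1 (fun h => hii (hinj h)))).mono
            fun p hp _ => hp
    · exact ((hcontQ i).prodMk hcontR).eventually
        (u.eventually_pl_ne_pl hRR hdeg (ha i).1 hr0 (ha i).2.2)
    · refine ContinuousAt.eventually_ne ?_ ?_
      · exact (continuous_const.add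
          (continuous_finsetSum _ fun j _ => (X j).continuous.mul continuous_const)).continuousAt
      · simp [X, hp0, hh0d, Nat.factorial_ne_zero]
  -- conclusion
  have hG0 : G p0 = (0, 0, r0) := by
    refine Prod.ext ?_ (Prod.ext ?_ rfl)
    · funext ik
      simp [G, X, Q, hp0, hh0d, ne_of_lt ik.2.2]
    · simp [G, X, Rr, hp0, zero_pow (show e0 ≠ 0 from (u.e_pos r0 hr0).ne')]
  have himg : ∀ᶠ r in 𝓝 r0, ∃ p, ((∀ i, Q i p ∈ W i) ∧ Rr p ∈ WR ∧
      (∀ i i', i ≠ i' → u.pl (Q i p) ≠ u.pl (Q i' p)) ∧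
      (∀ i, u.pl (Q i p) ≠ u.pl (Rr p)) ∧
      iteratedDeriv m (h0 i0) (a i0) + ∑ j, X j p * iteratedDeriv m (s i0 j) (a i0) ≠ 0) ∧
      G p = (0, 0, r) := by
    have h1 := hstrict.map_nhds_eq_of_surj hLsurj
    rw [hG0] at h1
    have h2 : ∀ᶠ y in 𝓝 ((0, 0, r0) : (Fin n × Fin m → ℂ) × ℂ × ℂ), ∃ p,
        ((∀ i, Q i p ∈ W i) ∧ Rr p ∈ WR ∧
          (∀ i i', i ≠ i' → u.pl (Q i p) ≠ u.pl (Q i' p)) ∧
          (∀ i, u.pl (Q i p) ≠ u.pl (Rr p)) ∧
          iteratedDeriv m (h0 i0) (a i0) + ∑ j, X j p * iteratedDeriv m (s i0 j) (a i0) ≠ 0) ∧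
        G p = y := by
      rw [← h1]
      exact eventually_map.mpr (hV.mono fun p hp => ⟨p, hp, rfl⟩)
    exact ((by fun_prop : Continuous fun r : ℂ =>
      ((0, 0, r) : (Fin n × Fin m → ℂ) × ℂ × ℂ)).tendsto r0).eventually h2
  filter_upwards [himg] with r hr
  obtain ⟨p, ⟨hpW, hpR, hpQ, hpQR, hpne⟩, hGp⟩ := hr
  have hRp : Rr p = r := (Prod.ext_iff.mp (Prod.ext_iff.mp hGp).2).2
  rw [hRp] at hpR hpQR
  rcases eq_or_ne r r0 with rfl | hrne
  · rw [hR0, sub_self]; exact zero_mem _
  have hjet : ∀ i (k : Fin m), iteratedDeriv k (h0 i) (Q i p)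
      + ∑ j, X j p * iteratedDeriv k (s i j) (Q i p) = 0 := fun i k =>
    congrFun (Prod.ext_iff.mp hGp).1 (i, k)
  have hval0 : (r - r0) ^ e0 + ∑ j, X j p * t j r = 0 := by
    have := (Prod.ext_iff.mp (Prod.ext_iff.mp hGp).2).1
    rw [← hRp]
    exact this
  set f : F := 1 + ∑ j, algebraMap ℂ F (X j p) * φ j with hf
  have hfval : ∀ z ∈ u.U, u.val f =ᶠ[𝓝[≠] z] fun w => 1 + ∑ j, X j p * u.val (φ j) w := by
    intro z hz
    filter_upwards [u.val_add 1 (∑ j, algebraMap ℂ F (X j p) * φ j) z hz,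
      u.val_sum Finset.univ (fun j => X j p) φ hz, u.val_one z hz] with w h1 h2 h3
    rw [hf, h1, h2, h3]
  set H : Fin n → ℂ → ℂ := fun i z => h0 i z + ∑ j, X j p * s i j z with hH
  have hHan : ∀ i, ∀ z ∈ W i, AnalyticAt ℂ (H i) z := fun i z hz =>
    (hh0an i z).add (Finset.analyticAt_fun_sum _ fun j _ =>
      analyticAt_const.mul ((hW i z hz).2.1 j))
  have hHd : ∀ i, ∀ z ∈ W i, ∀ k, iteratedDeriv k (H i) z
      = iteratedDeriv k (h0 i) z + ∑ j, X j p * iteratedDeriv k (s i j) z := by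
    intro i z hz k
    simp only [hH]
    have hsj : ∀ j, AnalyticAt ℂ (fun w => X j p * s i j w) z := fun j =>
      analyticAt_const.mul ((hW i z hz).2.1 j)
    rw [iteratedDeriv_fun_add (hh0an i z).contDiffAt
      (Finset.analyticAt_fun_sum _ fun j _ => hsj j).contDiffAt,
      iteratedDeriv_fun_sum fun j _ => (hsj j).contDiffAt]
    simp [iteratedDeriv_const_mul_field]
  have hHf : ∀ i, ∀ z ∈ W i, H i =ᶠ[𝓝[≠] z] fun w => (w - a i) ^ m * u.val f w := by
    intro i z hz
    have hne : ∀ᶠ w in 𝓝[≠] z, w ≠ a i := by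
      by_cases hza : z = a i
      · exact hza ▸ eventually_nhdsWithin_of_forall fun w hw => hw
      · exact nhdsWithin_le_nhds (isOpen_ne.eventually_mem hza)
    filter_upwards [hne, nhdsWithin_le_nhds ((hWo i).eventually_mem hz),
      hfval z (hWU i hz)] with w hw hwW hwf
    rw [hwf, hH, hh0]
    simp only [fun j => (hW i w hwW).2.2 hw j]
    rw [mul_add, mul_one, Finset.mul_sum]
    congr 1
    exact Finset.sum_congr rfl fun j _ => by ring
  have hf0 : f ≠ 0 := by
    intro hzero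
    have h1 : H i0 =ᶠ[𝓝[≠] a i0] fun _ => 0 := by
      filter_upwards [hHf i0 _ (hWa i0), u.val_zero (ha i0).1] with w h1 h2
      rw [h1, hzero, h2, mul_zero]
    have h2 := (hHan i0 _ (hWa i0)).continuousAt.eventuallyEq_nhds_iff_eventuallyEq_nhdsNE
      continuousAt_const |>.mp h1
    apply hpne
    rw [← hHd i0 _ (hWa i0), h2.iteratedDeriv_eq]
    simp
  have hlow : ∀ w, -E' w ≤ w.ord f := by
    intro w
    rw [← adicValuation_le_exp_iff w hf0]
    have h1 : (1 : WithZero (Multiplicative ℤ)) ≤ WithZero.exp (E' w) := by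
      rw [← WithZero.exp_zero, WithZero.exp_le_exp, hEdef]
      have := hE0 w; have := hR1 w; positivity
    rw [hf]
    refine (w.adicValuation.map_add _ _).trans (max_le (by simpa using h1) ?_)
    refine w.adicValuation.map_sum_le fun j _ => ?_
    rw [map_mul]
    calc _ ≤ 1 * WithZero.exp (E' w) := mul_le_mul' (adicValuation_algebraMap_le_one w _)
          ((adicValuation_le_exp_iff w (hφ0 j) _).mpr (hφE j w))
      _ = _ := one_mul _
  have hQord : ∀ i, (m : ℤ) ≤ (u.pl (Q i p)).ord f + E' (u.pl (Q i p)) := by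
    intro i
    have h1 := u.le_mul_ord hf0 (hWU i (hpW i)) (k := m) (j := m) (hHan i _ (hpW i))
      (hHf i _ (hpW i)) fun k hk => by
        rw [hHd i _ (hpW i)]; exact hjet i ⟨k, hk⟩
    rw [(hW i _ (hpW i)).1, Nat.cast_one, one_mul] at h1
    have h2 := hE0 (u.pl (Q i p)); have h3 := hR1 (u.pl (Q i p))
    rw [hEdef]
    split_ifs at h1 with hqa
    · rw [hqa] at h1 h2 h3 ⊢
      rw [hEa i]; omega
    · nlinarith
  have hRord : 1 ≤ (u.pl r).ord f + E' (u.pl r) := by
    have hrU : r ∈ u.U := (hWR r hpR).1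
    have hK : (fun z => (z - r0) ^ e0 + ∑ j, X j p * t j z) =ᶠ[𝓝[≠] r]
        fun w => (w - r0) ^ e0 * u.val f w := by
      filter_upwards [nhdsWithin_le_nhds (isOpen_ne.eventually_mem hrne),
        nhdsWithin_le_nhds (hWRo.eventually_mem hpR), hfval r hrU] with w hw hwW hwf
      rw [hwf, mul_add, mul_one, Finset.mul_sum]
      simp only [fun j => (hWR w hwW).2.2 hw j]
      congr 1
      exact Finset.sum_congr rfl fun j _ => by ring
    have h1 := u.le_mul_ord hf0 hrU (k := e0) (j := 1)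
      (((analyticAt_id.sub analyticAt_const).pow e0).add (Finset.analyticAt_fun_sum _ fun j _ =>
        analyticAt_const.mul ((hWR r hpR).2.1 j))) hK fun k hk => by
          obtain rfl : k = 0 := by omega
          rw [iteratedDeriv_zero]; exact hval0
    rw [if_neg hrne, zero_add] at h1
    have h2 := u.e_pos r hrU
    have h3 := hE0 (u.pl r); have h4 := hR1 (u.pl r)
    rw [hEdef]
    have h5 : 0 < (u.pl r).ord f := by
      push_cast at h1
      by_contra hcon
      push Not at hcon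
      nlinarith
    nlinarith
  -- the divisor identity
  obtain ⟨D, hD, hDdeg⟩ := HasPrincipalDivisors.exists_divisor (K := ℂ) f hf0
  set E1 : Divisor ℂ F := ∑ i, Finsupp.single (u.pl (Q i p)) 1 with hE1
  have hE1deg : Divisor.degree E1 = n := by rw [hE1, map_sum]; simp [hdeg]
  have hkey : D + E' - (m • E1 + Finsupp.single (u.pl r) 1) = 0 := by
    refine eq_zero_of_nonneg_of_degree_eq_zero hdeg (fun w => ?_) ?_
    · simp only [Finsupp.sub_apply, Finsupp.add_apply, Finsupp.smul_apply, nsmul_eq_mul, hD w]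
      have hl := hlow w
      by_cases hwQ : ∃ i, u.pl (Q i p) = w
      · obtain ⟨i, rfl⟩ := hwQ
        rw [hE1, Finsupp.finsetSum_apply, Finset.sum_eq_single i]
        · rw [Finsupp.single_eq_same, Finsupp.single_eq_of_ne (hpQR i)]
          have := hQord i
          omega
        · exact fun i' _ hi' => Finsupp.single_eq_of_ne (hpQ i' i hi').symm
        · simp
      · push Not at hwQ
        rw [hE1, Finsupp.finsetSum_apply,
          Finset.sum_eq_zero fun i _ => Finsupp.single_eq_of_ne (Ne.symm (hwQ i))]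
        by_cases hwR : u.pl r = w
        · subst hwR
          rw [Finsupp.single_eq_same]
          omega
        · rw [Finsupp.single_eq_of_ne (Ne.symm hwR)]
          omega
    · simp only [map_sub, map_add, map_nsmul, hE', hDdeg, hEdeg, hE1deg, Divisor.degree_single,
        hdeg]
      simp
  have hdiff : Finsupp.single (u.pl r) (1 : ℤ) - Finsupp.single R0 1 = D + m • (E - E1) := by
    rw [sub_eq_zero, hE'] at hkey
    have h1 : Finsupp.single (u.pl r) (1 : ℤ) = D + (m • E + Finsupp.single R0 1) - m • E1 := by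
      rw [hkey]; abel
    rw [h1, smul_sub]; abel
  rw [hdiff]
  refine AddSubgroup.add_mem _ (AddSubgroup.mem_sup_left ⟨f, hf0, hD⟩)
    (AddSubgroup.mem_sup_right ⟨E - E1, ?_, rfl⟩)
  rw [SetLike.mem_coe, Divisor.mem_degZero, map_sub, hEdeg, hE1deg, sub_self]

end Fermat.Agent.MW.Uniformization
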