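import Fermat.Agent.MW.Main
import Fermat.Agent.MW.DivisibleJZero
import Fermat.Agent.HK.Kummer.JZero
import Fermat.Agent.MF.Coeff.FieldK

/-!
# Mordell-Weil for `J₀(N)` over `ℚ`, all inputs discharged except the injectivity of reduction

Divisibility, finiteness of the `2`-torsion and the function field structure are filled in; what
remains is that reduction is injective on `2`-torsion outside a finite set of primes.
-/

set_option autoImplicit false
set_option linter.style.haveILetI false

noncomputable section

open AlgebraicCurve ModularCurve Fermat.Agent.Galois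

namespace Fermat.Agent.MW

/-- Mordell-Weil for `J₀(N)` over `ℚ` from injectivity of reduction on `2`-torsion. -/
theorem fg_fixedPoints_jzero_of_injective (N : ℕ) [NeZero N] (S : Finset ℕ)
    (hinj : ∀ q : ℕ, q.Prime → q ∉ S → ∀ A : ValuationSubring Qbar, A.LiesOverPrime q →
      ∀ t : JZero N, 2 • t = 0 → reductionModL A N t = 0 → t = 0) :
    AddGroup.FG ↥(FixedPoints.addSubgroup GalQ (JZero N)) := by
  haveI : FF.IsFunctionField Qbar (modularFunctionFieldBar N) :=
    MF.Coeff.isFunctionField_laurentBaseChange _ N
  have hdiv : ∀ n : ℕ, n ≠ 0 → ∀ z : JZero N, ∃ y : JZero N, n • y = z :=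
    fun n hn z => exists_nsmul_eq_jzero N hn z
  exact fg_fixedPoints_of_inputs N (hdiv 2 two_ne_zero) (HK.finite_jZero_nsmul_eq_zero N 2) S
    fun q hq hqS A hA =>
      ⟨fun σ hσ x => reductionModL_inertia_smul hdiv hσ x, hinj q hq hqS A hA⟩

end Fermat.Agent.MW

end
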