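import Fermat.Prelude.Def_ModularCurve_ReductionModL
import Fermat.Agent.Galois.Decomposition

/-!
# Reduction of classes is invariant under inertia

For any reduction datum of places, the difference of the reductions of `σ D` and `D` is additive,
vanishes on principal divisors and takes values in a free group; as `Pic0` is divisible it
vanishes on all divisors of degree zero.
-/

set_option autoImplicit false

noncomputable section

open AlgebraicCurve ModularCurve

namespace Fermat.Agent.MW

variable {L : Type*} [Field L] [Algebra ℚ L] {A : ValuationSubring L}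
variable {k : Type*} [Field k] {π : A →+* k} {N : ℕ}
variable {r : Place L (laurentBaseChange L (modularFunctionFieldFull N)) →
  Place k (modularFunctionFieldFullC k N)}

/-- Reduction of divisors of degree zero is invariant under an automorphism inducing the identity
on the residue field. -/
theorem mapDomain_arithmeticGalois_smul (hr : IsPlaceReductionAlong A π N r)
    (hgen : PrincipalGeneratedByIntegral A π N)
    (hdiv : ∀ n : ℕ, n ≠ 0 → ∀ x : Pic0 L (laurentBaseChange L (modularFunctionFieldFull N)),
      ∃ y, n • y = x)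
    (σ : L ≃ₐ[ℚ] L) (hσA : ∀ a ∈ A, σ a ∈ A)
    (hσπ : ∀ (a : A) (h : σ a ∈ A), π ⟨σ a, h⟩ = π a)
    {D : Divisor L (laurentBaseChange L (modularFunctionFieldFull N))}
    (hD : D ∈ Divisor.degZero (K := L) (F := laurentBaseChange L (modularFunctionFieldFull N))) :
    Finsupp.mapDomain r (arithmeticGalois (modularFunctionFieldFull N) σ • D) =
      Finsupp.mapDomain r D := by
  set g := arithmeticGalois (modularFunctionFieldFull N) σ with hg
  set δ : Divisor L (laurentBaseChange L (modularFunctionFieldFull N)) →+
      Divisor k (modularFunctionFieldFullC k N) :=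
    (Finsupp.mapDomain.addMonoidHom r).comp (DistribSMul.toAddMonoidHom _ g) -
      Finsupp.mapDomain.addMonoidHom r with hδ
  have hδapp : ∀ E, δ E = Finsupp.mapDomain r (g • E) - Finsupp.mapDomain r E := fun E => rfl
  let σA : A →+* A :=
    ((σ : L →+* L).comp A.subtype).codRestrict A.toSubring fun a => hσA a a.2
  have hπσ : π.comp σA = π := RingHom.ext fun a => hσπ a (hσA a a.2)
  have hint : ∀ E ∈ integralPrincipalDivisors A π N, δ E = 0 := by
    rintro E ⟨y, hy, hyk, hne, hE⟩
    have hsub : coeffMap A.subtype (coeffMap σA y) = coeffMap (σ : L →+* L) (coeffMap A.subtype y) := by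
      rw [coeffMap_coeffMap, coeffMap_coeffMap]
      exact coeffMap_congr (RingHom.ext fun a => rfl) y
    have hred : coeffMap π (coeffMap σA y) = coeffMap π y := by
      rw [coeffMap_coeffMap, hπσ]
    have hy' : coeffMap A.subtype (coeffMap σA y) ∈
        laurentBaseChange L (modularFunctionFieldFull N) := by
      rw [hsub]; exact coeffMap_mem_laurentBaseChange σ hy
    have hmem : (⟨_, hy'⟩ : laurentBaseChange L (modularFunctionFieldFull N)) =
        g • (⟨_, hy⟩ : laurentBaseChange L (modularFunctionFieldFull N)) :=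
      Subtype.ext (by rw [hg, coe_arithmeticGalois_smul]; exact hsub)
    have hyk' : coeffMap π (coeffMap σA y) ∈ modularFunctionFieldFullC k N := by
      rw [hred]; exact hyk
    have hE' : ∀ P, (g • E) P = P.ord
        (⟨_, hy'⟩ : laurentBaseChange L (modularFunctionFieldFull N)) := by
      intro P
      rw [hmem, SemilinearAut.divisor_smul_apply, hE]
      have h := SemilinearAut.ord_smul g (g⁻¹ • P)
        (⟨_, hy⟩ : laurentBaseChange L (modularFunctionFieldFull N))
      rw [smul_inv_smul] at h
      exact h.symm
    rw [hδapp, sub_eq_zero]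
    ext Q
    rw [hr.2 y hy hyk hne E hE Q, hr.2 _ hy' hyk' (by rw [hred]; exact hne) _ hE' Q]
    exact congrArg Q.ord (Subtype.ext hred)
  have hprin : ∀ E ∈ Divisor.principal (K := L)
      (F := laurentBaseChange L (modularFunctionFieldFull N)), δ E = 0 := fun E hE =>
    (AddSubgroup.closure_le δ.ker).mpr hint (hgen hE)
  rw [← sub_eq_zero, ← hδapp]
  ext Q
  rw [Finsupp.zero_apply]
  refine Int.eq_zero_of_dvd_of_natAbs_lt_natAbs (d := (((δ D) Q).natAbs + 1 : ℕ)) ?_
    (by rw [Int.natAbs_natCast]; exact Nat.lt_succ_self _)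
  obtain ⟨y, hy⟩ := hdiv ((δ D Q).natAbs + 1) (Nat.succ_ne_zero _) (Pic0.mk ⟨D, hD⟩)
  obtain ⟨E, rfl⟩ := Pic0.mk_surjective y
  have hmem : ((⟨D, hD⟩ : Divisor.degZero (K := L)
      (F := laurentBaseChange L (modularFunctionFieldFull N))) - ((δ D Q).natAbs + 1) • E) ∈
      (Divisor.principal (K := L)
        (F := laurentBaseChange L (modularFunctionFieldFull N))).addSubgroupOf
        (Divisor.degZero (K := L) (F := laurentBaseChange L (modularFunctionFieldFull N))) := by
    rw [← QuotientAddGroup.eq_iff_sub_mem, QuotientAddGroup.mk_nsmul]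
    exact hy.symm
  rw [AddSubgroup.mem_addSubgroupOf, AddSubgroupClass.coe_sub, AddSubgroupClass.coe_nsmul] at hmem
  have h0 := hprin _ hmem
  rw [map_sub, map_nsmul, sub_eq_zero] at h0
  refine ⟨δ (E : Divisor L (laurentBaseChange L (modularFunctionFieldFull N))) Q, ?_⟩
  have h1 := DFunLike.congr_fun h0 Q
  rw [Finsupp.smul_apply, nsmul_eq_mul] at h1
  exact h1

end Fermat.Agent.MW

namespace Fermat.Agent.MW

open Fermat.Agent.Galois

set_option synthInstance.maxHeartbeats 400000 in
/-- `reductionModL` is invariant under inertia. -/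
theorem reductionModL_inertia_smul {N : ℕ} {A : ValuationSubring Qbar}
    (hdiv : ∀ n : ℕ, n ≠ 0 → ∀ x : JZero N, ∃ y, n • y = x)
    {σ : GalQ} (hσ : σ ∈ A.inertiaSubgroupIn ℚ) (x : JZero N) :
    reductionModL A N (σ • x) = reductionModL A N x := by
  by_cases h : ReductionInputsModL A N
  swap
  · rw [reductionModL_of_not h]; rfl
  obtain ⟨D, rfl⟩ := Pic0.mk_surjective x
  rw [galois_smul_pic0_def, SemilinearAut.pic0_smul_mk, reductionModL_mk h, reductionModL_mk h]
  refine congrArg Pic0.mk (Subtype.ext ?_)
  rw [coe_reductionDegZeroAlong, coe_reductionDegZeroAlong, SemilinearAut.coe_degZeroSMulHom]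
  refine mapDomain_arithmeticGalois_smul (isPlaceReductionModL_placeReductionModL h)
    h.choose_spec.2 hdiv σ (fun a ha => decomposition_apply_mem (inertia_le_decomposition A hσ) ha)
    (fun a ha => ?_) D.2
  rw [residue_eq_residue_iff]
  exact inertia_sub_mem_nonunits hσ a.2

end Fermat.Agent.MW
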