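import Fermat.Agent.MW.Final
import Fermat.Agent.RED.X0Lift
import Fermat.Agent.RED.TorsionModular

/-!
# Mordell-Weil for `J₀(N)` over `ℚ`
-/

set_option autoImplicit false

noncomputable section

open AlgebraicCurve ModularCurve Fermat.Agent.Galois

namespace Fermat.Agent.MW

/-- `J₀(N)(ℚ)` is finitely generated. -/
theorem fg_fixedPoints_jzero (N : ℕ) [NeZero N] :
    AddGroup.FG ↥(FixedPoints.addSubgroup GalQ (JZero N)) := by
  refine fg_fixedPoints_jzero_of_injective N (6 * N).primeFactors fun q hq hqS A hA t ht htr => ?_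
  have h : ¬ q ∣ 6 * N := fun hd =>
    hqS (Nat.mem_primeFactors.mpr ⟨hq, hd, by have := NeZero.ne N; omega⟩)
  have hN : ¬ q ∣ N := fun hd => h (hd.mul_left 6)
  have h2 : ¬ q ∣ 2 := fun hd => h ((hd.trans (by norm_num : 2 ∣ 6)).mul_right N)
  have h3 : ¬ q ∣ 3 := fun hd => h ((hd.trans (by norm_num : 3 ∣ 6)).mul_right N)
  have h5 : 5 ≤ q := by
    by_contra hlt
    have := hq.two_le
    interval_cases q
    · exact h2 dvd_rfl
    · exact h3 dvd_rfl
    · exact absurd hq (by norm_num)
  have hlift := RED.x0Lift_of_five_le hq hN hA h5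
  exact RED.eq_zero_of_reductionModL_eq_zero hq hN hA hlift
    (RED.reductionInputsModL hq hN hA hlift) h2 t ht htr

end Fermat.Agent.MW

end
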