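import Mathlib.Algebra.Ring.Action.Submonoid
import Mathlib.GroupTheory.Index
import Mathlib.GroupTheory.QuotientGroup.Basic
import Mathlib.Algebra.BigOperators.Group.Finset.Defs
import Mathlib.GroupTheory.GroupAction.Quotient
import Mathlib.Data.Finite.Prod

/-!
# Weak Mordell-Weil: the abstract Kummer argument

`G` acts on `J`.  If multiplication by `n` is surjective with finite kernel and a finite index
subgroup `H` of `G` fixes every `y` with `n • y` invariant, then the invariants modulo `n` are
finite.
-/

set_option autoImplicit false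

namespace Fermat.Agent.MW

variable {G J : Type*} [Group G] [AddCommGroup J] [DistribMulAction G J]

theorem smul_sub_eq_kummer {n : ℕ} {y : J} (hy : ∀ σ : G, σ • (n • y) = n • y) (σ : G) :
    n • (σ • y - y) = 0 := by
  rw [smul_sub, ← smul_comm σ n y, hy σ, sub_self]

/-- The orbit of an `n`-th division point of an invariant element is contained in a translate of
the `n`-torsion. -/
theorem orbit_subset_add_torsion {n : ℕ} {y : J} (hy : ∀ σ : G, σ • (n • y) = n • y) :
    MulAction.orbit G y ⊆ (fun t => y + t) '' {t : J | n • t = 0} := by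
  rintro _ ⟨σ, rfl⟩
  exact ⟨σ • y - y, smul_sub_eq_kummer hy σ, add_sub_cancel _ _⟩

/-- Kummer theory: finiteness of invariants modulo `n`. -/
theorem finiteIndex_nsmul_range_fixedPoints (n : ℕ)
    (hdiv : ∀ z : J, ∃ y : J, n • y = z) (htor : {t : J | n • t = 0}.Finite)
    (H : Subgroup G) [H.FiniteIndex]
    (hH : ∀ y : J, (∀ σ : G, σ • (n • y) = n • y) → ∀ h ∈ H, h • y = y) :
    (nsmulAddMonoidHom (α := ↥(FixedPoints.addSubgroup G J)) n).range.FiniteIndex := by
  classical
  haveI : Finite {t : J | n • t = 0} := htor.to_subtype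
  haveI : Finite (G ⧸ H) := inferInstance
  choose y hy using fun z : FixedPoints.addSubgroup G J => hdiv (z : J)
  have hyfix : ∀ z, ∀ σ : G, σ • (n • y z) = n • y z := fun z σ => by
    rw [hy z]; exact z.2 σ
  let κ : FixedPoints.addSubgroup G J → (G ⧸ H) → {t : J | n • t = 0} := fun z q =>
    ⟨q.out • y z - y z, smul_sub_eq_kummer (hyfix z) q.out⟩
  have key : ∀ z σ, (κ z ((σ : G) : G ⧸ H) : J) = σ • y z - y z := by
    intro z σ
    obtain ⟨h, hh⟩ := QuotientGroup.mk_out_eq_mul H σ
    show ((σ : G) : G ⧸ H).out • y z - y z = _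
    rw [hh, mul_smul, hH (y z) (hyfix z) (h : G) h.2]
  set R := (nsmulAddMonoidHom (α := ↥(FixedPoints.addSubgroup G J)) n).range
  have hinj : ∀ z w, κ z = κ w → z - w ∈ R := by
    intro z w h
    have hfix : y z - y w ∈ FixedPoints.addSubgroup G J := by
      intro σ
      have h1 : (κ z ((σ : G) : G ⧸ H) : J) = κ w ((σ : G) : G ⧸ H) := by rw [h]
      rw [key, key, sub_eq_sub_iff_sub_eq_sub] at h1
      rw [smul_sub]; exact h1
    refine ⟨⟨y z - y w, hfix⟩, Subtype.ext ?_⟩
    show n • (y z - y w) = (z : J) - w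
    rw [smul_sub, hy, hy]
  have : Finite (↥(FixedPoints.addSubgroup G J) ⧸ R) := by
    refine Finite.of_injective (fun q => κ q.out) fun q q' h => ?_
    have := hinj _ _ h
    rw [← QuotientAddGroup.out_eq' q, ← QuotientAddGroup.out_eq' q']
    exact (QuotientAddGroup.eq_iff_sub_mem).mpr this
  exact AddSubgroup.finiteIndex_of_finite_quotient

end Fermat.Agent.MW
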