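import Fermat.Agent.MW.OpenStab
import Fermat.Agent.MW.WeakMW
import Fermat.Agent.Galois.Unramified
import Mathlib.FieldTheory.Galois.Infinite

/-!
# One level for all `n`-th division points of invariant elements
-/

set_option autoImplicit false

noncomputable section

open Fermat.Agent.Galois

namespace Fermat.Agent.MW

variable {J : Type*} [AddCommGroup J] [DistribMulAction GalQ J]

/-- All `y` with `n • y` invariant are fixed by one subgroup of finite index, provided they are
fixed at finite levels and by inertia outside a finite set of primes. -/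
theorem exists_finiteIndex_of_unramified {n : ℕ} (htor : {t : J | n • t = 0}.Finite)
    (hlevel : ∀ y : J, FixedByFiniteLevel Qbar y) (S : Finset ℕ)
    (hunr : ∀ q : ℕ, q.Prime → q ∉ S → ∀ A : ValuationSubring Qbar, A.LiesOverPrime q →
      ∀ σ ∈ A.inertiaSubgroupIn ℚ, ∀ y : J, (∀ τ : GalQ, τ • (n • y) = n • y) → σ • y = y) :
    ∃ H : Subgroup GalQ, H.FiniteIndex ∧
      ∀ y : J, (∀ σ : GalQ, σ • (n • y) = n • y) → ∀ h ∈ H, h • y = y := by
  obtain ⟨M, hM, -, hMmax⟩ := exists_level_of_bounded_index S htor.toFinset.card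
  refine ⟨M.fixingSubgroup, ?_, fun y hy h hh => ?_⟩
  · refine ⟨?_⟩
    rw [← IntermediateField.finrank_eq_fixingSubgroup_index]
    exact Module.finrank_pos.ne'
  obtain ⟨L, hL, hLy⟩ := hlevel y
  set U : Subgroup GalQ := MulAction.stabilizer GalQ y
  have hLU : L.fixingSubgroup ≤ U := fun σ hσ => hLy σ fun a ha =>
    (IntermediateField.mem_fixingSubgroup_iff L σ).mp hσ a ha
  have hUopen : IsOpen (U : Set GalQ) :=
    Subgroup.isOpen_mono hLU (IntermediateField.fixingSubgroup_isOpen L)
  set F := IntermediateField.fixedField U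
  have hF : F.fixingSubgroup = U :=
    InfiniteGalois.fixingSubgroup_fixedField ⟨U, Subgroup.isClosed_of_isOpen U hUopen⟩
  have hFL : F ≤ L := by
    intro x hx
    have := IntermediateField.fixedField_antitone hLU hx
    rwa [InfiniteGalois.fixedField_fixingSubgroup] at this
  haveI : FiniteDimensional ℚ F :=
    Module.Finite.of_injective (IntermediateField.inclusion hFL).toLinearMap
      (IntermediateField.inclusion hFL).injective
  have hdeg : Module.finrank ℚ F ≤ htor.toFinset.card := by
    rw [IntermediateField.finrank_eq_fixingSubgroup_index, hF, MulAction.index_stabilizer]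
    refine le_trans (Set.ncard_le_ncard (orbit_subset_add_torsion hy) (htor.image _)) ?_
    refine le_trans (Set.ncard_image_le htor) ?_
    rw [Set.ncard_eq_toFinset_card _ htor]
  have hFM : F ≤ M := hMmax F inferInstance hdeg fun q hq hqS A hA σ hσ => by
    rw [hF]
    exact hunr q hq hqS A hA σ hσ y hy
  have hhF : h ∈ F.fixingSubgroup := IntermediateField.fixingSubgroup_le hFM hh
  rw [hF] at hhF
  exact hhF

/-- Weak Mordell-Weil over `ℚ` from divisibility, finite torsion and almost everywhere
unramifiedness of division points. -/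
theorem weakMW_of_unramified (n : ℕ) (hdiv : ∀ z : J, ∃ y : J, n • y = z)
    (htor : {t : J | n • t = 0}.Finite) (hlevel : ∀ y : J, FixedByFiniteLevel Qbar y)
    (S : Finset ℕ)
    (hunr : ∀ q : ℕ, q.Prime → q ∉ S → ∀ A : ValuationSubring Qbar, A.LiesOverPrime q →
      ∀ σ ∈ A.inertiaSubgroupIn ℚ, ∀ y : J, (∀ τ : GalQ, τ • (n • y) = n • y) → σ • y = y) :
    (nsmulAddMonoidHom (α := ↥(FixedPoints.addSubgroup GalQ J)) n).range.FiniteIndex := by
  obtain ⟨H, hH, hHy⟩ := exists_finiteIndex_of_unramified htor hlevel S hunr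
  exact finiteIndex_nsmul_range_fixedPoints n hdiv htor H hHy

/-- Unramifiedness from a reduction map which is injective on `n`-torsion. -/
theorem inertia_fix_of_reduction {n : ℕ} {M : Type*} [AddCommGroup M] (r : J →+ M)
    {σ : GalQ} (hinv : ∀ x : J, r (σ • x) = r x)
    (hinj : ∀ t : J, n • t = 0 → r t = 0 → t = 0) {y : J}
    (hy : ∀ τ : GalQ, τ • (n • y) = n • y) : σ • y = y := by
  refine sub_eq_zero.mp (hinj _ (smul_sub_eq_kummer hy σ) ?_)
  rw [map_sub, hinv, sub_self]

end Fermat.Agent.MW
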