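import Fermat.Agent.MW.Assembly
import Fermat.Agent.MW.InertiaInvariance

/-!
# Mordell-Weil for `J₀(N)` from divisibility, torsion finiteness and good reduction
-/

set_option autoImplicit false
set_option linter.style.haveILetI false

noncomputable section

open AlgebraicCurve ModularCurve Fermat.Agent.Galois

namespace Fermat.Agent.MW

/-- Mordell-Weil for `J₀(N)` over `ℚ`, from: divisibility, finiteness of the `2`-torsion, and
injectivity of reduction on `2`-torsion at places over primes outside `2N`. -/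
theorem fg_fixedPoints_of_good_reduction (N : ℕ)
    [FF.IsFunctionField Qbar (modularFunctionFieldBar N)] (hN : N ≠ 0)
    (hdiv : ∀ n : ℕ, n ≠ 0 → ∀ z : JZero N, ∃ y : JZero N, n • y = z)
    (htor : {t : JZero N | 2 • t = 0}.Finite)
    (hinj : ∀ q : ℕ, q.Prime → ¬ q ∣ N → ∀ A : ValuationSubring Qbar, A.LiesOverPrime q →
      ¬ q ∣ 2 → ∀ t : JZero N, 2 • t = 0 → reductionModL A N t = 0 → t = 0) :
    AddGroup.FG ↥(FixedPoints.addSubgroup GalQ (JZero N)) := by
  refine fg_fixedPoints_of_inputs N (hdiv 2 two_ne_zero) htor (2 * N).primeFactors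
    fun q hq hqS A hA => ?_
  have h : ¬ q ∣ 2 * N := fun hd => hqS (Nat.mem_primeFactors.mpr ⟨hq, hd, by omega⟩)
  exact ⟨fun σ hσ x => reductionModL_inertia_smul hdiv hσ x,
    hinj q hq (fun hd => h (hd.mul_left 2)) A hA fun hd => h (hd.mul_right N)⟩

end Fermat.Agent.MW
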