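import Fermat.Agent.MW.DivisibleLocal

/-!
# Uniformisations from homomorphisms to meromorphic functions

A field homomorphism from a function field to the meromorphic functions on a connected open set
gives a uniformisation: places are the valuation rings of the orders and `e` is the order of a
uniformiser.
-/

set_option autoImplicit false
set_option linter.style.haveILetI false

noncomputable section

open Filter Topology AlgebraicCurve WithZero

namespace Fermat.Agent.MW

/-- A realisation of `F` by meromorphic functions on a connected open set. -/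
structure MeroRealization (F : Type*) [Field F] [Algebra ℂ F] where
  U : Set ℂ
  isOpen_U : IsOpen U
  isPreconnected_U : IsPreconnected U
  nonempty_U : U.Nonempty
  val : F → ℂ → ℂ
  meromorphicAt_val : ∀ f, ∀ τ ∈ U, MeromorphicAt (val f) τ
  val_algebraMap : ∀ c : ℂ, ∀ τ ∈ U, val (algebraMap ℂ F c) =ᶠ[𝓝[≠] τ] fun _ => c
  val_add : ∀ f g, ∀ τ ∈ U, val (f + g) =ᶠ[𝓝[≠] τ] fun z => val f z + val g z
  val_mul : ∀ f g, ∀ τ ∈ U, val (f * g) =ᶠ[𝓝[≠] τ] fun z => val f z * val g z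
  exists_nonconstant : ∃ x : F, ∀ c : ℂ, x ≠ algebraMap ℂ F c

namespace MeroRealization

variable {F : Type*} [Field F] [Algebra ℂ F] (R : MeroRealization F) {τ : ℂ}

/-- The order at a point, as an integer. -/
def ordAt (τ : ℂ) (f : F) : ℤ := (meromorphicOrderAt (R.val f) τ).untop₀

theorem order_const (c : ℂ) (hτ : τ ∈ R.U) (hc : c ≠ 0) :
    meromorphicOrderAt (R.val (algebraMap ℂ F c)) τ = 0 := by
  classical
  rw [meromorphicOrderAt_congr (R.val_algebraMap c τ hτ), meromorphicOrderAt_const, if_neg hc]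

theorem order_mul (f g : F) (hτ : τ ∈ R.U) :
    meromorphicOrderAt (R.val (f * g)) τ =
      meromorphicOrderAt (R.val f) τ + meromorphicOrderAt (R.val g) τ := by
  rw [meromorphicOrderAt_congr (R.val_mul f g τ hτ),
    fun_meromorphicOrderAt_mul (R.meromorphicAt_val f τ hτ) (R.meromorphicAt_val g τ hτ)]

theorem order_ne_top {f : F} (hf : f ≠ 0) (hτ : τ ∈ R.U) :
    meromorphicOrderAt (R.val f) τ ≠ ⊤ := by
  intro h
  have h1 := R.order_mul f f⁻¹ hτ
  rw [mul_inv_cancel₀ hf, h, top_add] at h1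
  have h2 := R.order_const 1 hτ one_ne_zero
  rw [map_one, h1] at h2
  exact WithTop.top_ne_zero h2

theorem coe_ordAt {f : F} (hf : f ≠ 0) (hτ : τ ∈ R.U) :
    meromorphicOrderAt (R.val f) τ = (R.ordAt τ f : WithTop ℤ) :=
  (WithTop.coe_untop₀_of_ne_top (R.order_ne_top hf hτ)).symm

theorem val_sub_const (f : F) (c : ℂ) (hτ : τ ∈ R.U) :
    R.val (f - algebraMap ℂ F c) =ᶠ[𝓝[≠] τ] fun z => R.val f z - c := by
  filter_upwards [R.val_add (f - algebraMap ℂ F c) (algebraMap ℂ F c) τ hτ,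
    R.val_algebraMap c τ hτ] with z h1 h2
  rw [sub_add_cancel] at h1
  rw [h1, h2, add_sub_cancel_right]

theorem ordAt_mul {f g : F} (hf : f ≠ 0) (hg : g ≠ 0) (hτ : τ ∈ R.U) :
    R.ordAt τ (f * g) = R.ordAt τ f + R.ordAt τ g := by
  have := R.order_mul f g hτ
  rw [R.coe_ordAt (mul_ne_zero hf hg) hτ, R.coe_ordAt hf hτ, R.coe_ordAt hg hτ] at this
  exact_mod_cast this

theorem ordAt_const {c : ℂ} (hc : c ≠ 0) (hτ : τ ∈ R.U) :
    R.ordAt τ (algebraMap ℂ F c) = 0 := by
  rw [ordAt, R.order_const c hτ hc]; rfl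

open Classical in
/-- The valuation at a point of `U`. -/
def valAt (hτ : τ ∈ R.U) : Valuation F ℤᵐ⁰ where
  toFun f := if f = 0 then 0 else exp (-R.ordAt τ f)
  map_zero' := if_pos rfl
  map_one' := by
    rw [if_neg one_ne_zero, ← map_one (algebraMap ℂ F), R.ordAt_const one_ne_zero hτ]; simp
  map_mul' f g := by
    rcases eq_or_ne f 0 with rfl | hf
    · simp
    rcases eq_or_ne g 0 with rfl | hg
    · simp
    rw [if_neg (mul_ne_zero hf hg), if_neg hf, if_neg hg, ← exp_add, R.ordAt_mul hf hg hτ,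
      neg_add]
  map_add_le_max' f g := by
    rcases eq_or_ne f 0 with rfl | hf
    · simp
    rcases eq_or_ne g 0 with rfl | hg
    · simp
    rcases eq_or_ne (f + g) 0 with hfg | hfg
    · simp [if_pos hfg]
    rw [if_neg hfg, if_neg hf, if_neg hg, le_max_iff, exp_le_exp, exp_le_exp]
    have h := meromorphicOrderAt_add (R.meromorphicAt_val f τ hτ) (R.meromorphicAt_val g τ hτ)
    rw [← meromorphicOrderAt_congr (f₂ := R.val f + R.val g) (R.val_add f g τ hτ),
      R.coe_ordAt hf hτ, R.coe_ordAt hg hτ, R.coe_ordAt hfg hτ] at h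
    have h' : min (R.ordAt τ f) (R.ordAt τ g) ≤ R.ordAt τ (f + g) := by exact_mod_cast h
    omega

theorem valAt_apply (hτ : τ ∈ R.U) {f : F} (hf : f ≠ 0) :
    R.valAt hτ f = exp (-R.ordAt τ f) := if_neg hf

theorem exists_ordAt_pos (hτ : τ ∈ R.U) : ∃ f : F, f ≠ 0 ∧ 0 < R.ordAt τ f := by
  obtain ⟨x, hx⟩ := R.exists_nonconstant
  have hx0 : x ≠ 0 := by simpa using hx 0
  rcases lt_trichotomy 0 (R.ordAt τ x) with h | h | h
  · exact ⟨x, hx0, h⟩
  · obtain ⟨c, hc⟩ := tendsto_nhds_of_meromorphicOrderAt_nonneg (R.meromorphicAt_val x τ hτ)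
      (by rw [R.coe_ordAt hx0 hτ, ← h]; rfl)
    have hne : x - algebraMap ℂ F c ≠ 0 := sub_ne_zero.mpr (hx c)
    refine ⟨_, hne, ?_⟩
    have h0 : Tendsto (R.val (x - algebraMap ℂ F c)) (𝓝[≠] τ) (𝓝 0) := by
      refine Tendsto.congr' (R.val_sub_const x c hτ).symm ?_
      simpa using hc.sub_const c
    have := (tendsto_zero_iff_meromorphicOrderAt_pos (R.meromorphicAt_val _ τ hτ)).mp h0
    rw [R.coe_ordAt hne hτ] at this
    exact_mod_cast this
  · refine ⟨x⁻¹, inv_ne_zero hx0, ?_⟩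
    have := R.ordAt_mul hx0 (inv_ne_zero hx0) hτ
    rw [mul_inv_cancel₀ hx0, ← map_one (algebraMap ℂ F), R.ordAt_const one_ne_zero hτ] at this
    omega

open Classical in
/-- The place at a point of `U`. -/
def placeAt (hτ : τ ∈ R.U) : Place ℂ F where
  toValuationSubring := (R.valAt hτ).valuationSubring
  algebraMap_mem' a := by
    rw [Valuation.mem_valuationSubring_iff]
    rcases eq_or_ne a 0 with rfl | ha
    · simp
    · rw [R.valAt_apply hτ (by simpa using ha), R.ordAt_const ha hτ]; simp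
  ne_top' h := by
    obtain ⟨f, hf, hpos⟩ := R.exists_ordAt_pos hτ
    have h1 : f⁻¹ ∈ (R.valAt hτ).valuationSubring := h ▸ ValuationSubring.mem_top f⁻¹
    rw [Valuation.mem_valuationSubring_iff, map_inv₀, R.valAt_apply hτ hf, ← exp_neg, neg_neg,
      ← exp_zero, exp_le_exp] at h1
    omega
  isPrincipalIdealRing' := by
    haveI : (R.valAt hτ).IsNontrivial := by
      obtain ⟨f, hf, hpos⟩ := R.exists_ordAt_pos hτ
      refine ⟨⟨f, (Valuation.ne_zero_iff _).mpr hf, ?_⟩⟩
      rw [R.valAt_apply hτ hf, ← exp_zero, Ne, exp_inj]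
      omega
    exact inferInstanceAs (IsPrincipalIdealRing (R.valAt hτ).valuationSubring)

theorem mem_placeAt (hτ : τ ∈ R.U) {f : F} (hf : f ≠ 0) :
    f ∈ (R.placeAt hτ).toValuationSubring ↔ 0 ≤ R.ordAt τ f := by
  show f ∈ (R.valAt hτ).valuationSubring ↔ _
  rw [Valuation.mem_valuationSubring_iff, R.valAt_apply hτ hf, ← exp_zero, exp_le_exp]
  omega

/-- A chosen uniformiser at the place of a point. -/
def unifAt (hτ : τ ∈ R.U) : (R.placeAt hτ).toValuationSubring :=
  (IsDiscreteValuationRing.exists_irreducible _).choose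

theorem unifAt_irreducible (hτ : τ ∈ R.U) : Irreducible (R.unifAt hτ) :=
  (IsDiscreteValuationRing.exists_irreducible _).choose_spec

open Classical in
/-- The ramification index: the order of a uniformiser. -/
def eAt (τ : ℂ) : ℕ :=
  if hτ : τ ∈ R.U then (R.ordAt τ (R.unifAt hτ : F)).toNat else 0

theorem ordAt_eq (hτ : τ ∈ R.U) {f : F} (hf : f ≠ 0) :
    R.ordAt τ f = (R.eAt τ : ℤ) * (R.placeAt hτ).ord f := by
  have hπ := R.unifAt_irreducible hτ
  have hπ0 : ((R.unifAt hτ : (R.placeAt hτ).toValuationSubring) : F) ≠ 0 := by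
    simpa using hπ.ne_zero
  obtain ⟨u, hu⟩ := (R.placeAt hτ).exists_unit_mul_zpow hf hπ
  set n := (R.placeAt hτ).ord f with hn
  set a : F := ((u : (R.placeAt hτ).toValuationSubring) : F) with ha
  have ha0 : a ≠ 0 := by simp [ha]
  have hu1 : 0 ≤ R.ordAt τ a := (R.mem_placeAt hτ ha0).mp (SetLike.coe_mem _)
  have hu2 : 0 ≤ R.ordAt τ a⁻¹ := by
    refine (R.mem_placeAt hτ (inv_ne_zero ha0)).mp ?_
    have h1 : ((↑u⁻¹ : (R.placeAt hτ).toValuationSubring) : F) = a⁻¹ := by
      refine eq_inv_of_mul_eq_one_left ?_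
      rw [ha, ← MulMemClass.coe_mul, Units.inv_mul, OneMemClass.coe_one]
    rw [← h1]
    exact SetLike.coe_mem _
  have hsum := R.ordAt_mul ha0 (inv_ne_zero ha0) hτ
  rw [mul_inv_cancel₀ ha0, ← map_one (algebraMap ℂ F), R.ordAt_const one_ne_zero hτ] at hsum
  have he : (R.eAt τ : ℤ) = R.ordAt τ (R.unifAt hτ : F) := by
    rw [eAt, dif_pos hτ, Int.toNat_of_nonneg ((R.mem_placeAt hτ hπ0).mp (SetLike.coe_mem _))]
  have hz : ∀ k : ℤ, R.ordAt τ ((R.unifAt hτ : F) ^ k) = k * R.ordAt τ (R.unifAt hτ : F) := by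
    intro k
    induction k using Int.induction_on with
    | zero => rw [zpow_zero, zero_mul, ← map_one (algebraMap ℂ F), R.ordAt_const one_ne_zero hτ]
    | succ k ih =>
      rw [zpow_add_one₀ hπ0, R.ordAt_mul (zpow_ne_zero _ hπ0) hπ0 hτ, ih]; ring
    | pred k ih =>
      have h := R.ordAt_mul (zpow_ne_zero (-(k : ℤ) - 1) hπ0) hπ0 hτ
      rw [← zpow_add_one₀ hπ0, sub_add_cancel, ih] at h
      linarith
  rw [hu, R.ordAt_mul ha0 (zpow_ne_zero _ hπ0) hτ, hz, he]
  nlinarith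

theorem eAt_pos (hτ : τ ∈ R.U) : 0 < R.eAt τ := by
  obtain ⟨f, hf, hpos⟩ := R.exists_ordAt_pos hτ
  rw [R.ordAt_eq hτ hf] at hpos
  by_contra h
  rw [Nat.eq_zero_of_not_pos h] at hpos
  simp at hpos

theorem eAt_eq_one_of_order_one (hτ : τ ∈ R.U) {f : F} (hf : f ≠ 0)
    (h : meromorphicOrderAt (R.val f) τ = 1) : R.eAt τ = 1 := by
  rw [R.coe_ordAt hf hτ, R.ordAt_eq hτ hf] at h
  have h' : (R.eAt τ : ℤ) * (R.placeAt hτ).ord f = 1 := by exact_mod_cast h
  have := R.eAt_pos hτ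
  rcases Int.eq_one_or_neg_one_of_mul_eq_one h' with h1 | h1 <;> omega

/-- Where a regularised function has nonzero derivative the index is one. -/
theorem eAt_eq_one_of_deriv_ne_zero (hτ : τ ∈ R.U) {f : F} {g : ℂ → ℂ} (hg : AnalyticAt ℂ g τ)
    (hfg : R.val f =ᶠ[𝓝[≠] τ] g) (hd : deriv g τ ≠ 0) : R.eAt τ = 1 := by
  classical
  have h1 : R.val (f - algebraMap ℂ F (g τ)) =ᶠ[𝓝[≠] τ] fun z => g z - g τ := by
    filter_upwards [R.val_sub_const f (g τ) hτ, hfg] with z e1 e2
    rw [e1, e2]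
  have h2 : meromorphicOrderAt (R.val (f - algebraMap ℂ F (g τ))) τ = 1 := by
    rw [meromorphicOrderAt_congr h1, (hg.fun_sub analyticAt_const).meromorphicOrderAt_eq,
      hg.analyticOrderAt_sub_eq_one_of_deriv_ne_zero hd]
    rfl
  refine R.eAt_eq_one_of_order_one hτ (fun h0 => ?_) h2
  rw [h0, meromorphicOrderAt_congr (by simpa using R.val_algebraMap 0 τ hτ),
    meromorphicOrderAt_const, if_pos rfl] at h2
  exact WithTop.top_ne_one h2

theorem eventually_eAt_eq_one (hτ : τ ∈ R.U) (he : R.eAt τ = 1) :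
    ∀ᶠ z in 𝓝 τ, R.eAt z = 1 := by
  have hπ := R.unifAt_irreducible hτ
  have hπ0 : ((R.unifAt hτ : (R.placeAt hτ).toValuationSubring) : F) ≠ 0 := by
    simpa using hπ.ne_zero
  set f : F := (R.unifAt hτ : F)
  have hord : meromorphicOrderAt (R.val f) τ = ((1 : ℤ) : WithTop ℤ) := by
    rw [R.coe_ordAt hπ0 hτ, R.ordAt_eq hτ hπ0, he, Nat.cast_one, one_mul,
      (R.placeAt hτ).ord_coe_irreducible hπ]
  obtain ⟨g, hg, hfg⟩ := (R.meromorphicAt_val f τ hτ).meromorphicOrderAt_nonneg_iff.mp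
    (by rw [hord]; exact WithTop.coe_nonneg.mpr zero_le_one)
  have hgord : analyticOrderAt g τ = 1 := by
    rw [meromorphicOrderAt_congr hfg, hg.meromorphicOrderAt_eq] at hord
    cases hA : analyticOrderAt g τ with
    | top => rw [hA] at hord; simp at hord
    | coe n =>
      rw [hA, ENat.map_natCast, WithTop.coe_eq_coe] at hord
      have : n = 1 := by exact_mod_cast hord
      rw [this]; rfl
  have hd : deriv g τ ≠ 0 := by
    intro hd
    have h2 : ((2 : ℕ) : ℕ∞) ≤ analyticOrderAt g τ := by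
      rw [natCast_le_analyticOrderAt_iff_iteratedDeriv_eq_zero hg]
      intro i hi
      interval_cases i
      · rw [iteratedDeriv_zero]
        exact apply_eq_zero_of_analyticOrderAt_ne_zero (by rw [hgord]; exact one_ne_zero)
      · rw [iteratedDeriv_one]; exact hd
    rw [hgord] at h2
    exact absurd h2 (by decide)
  obtain ⟨W, hW, hWo, hWτ⟩ := _root_.eventually_nhds_iff.mp
    ((R.isOpen_U.eventually_mem hτ).and (hg.eventually_analyticAt.and
      ((hg.deriv.continuousAt.eventually_ne hd).and (eventually_nhdsWithin_iff.mp hfg))))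
  filter_upwards [hWo.mem_nhds hWτ] with z hz
  by_cases hzτ : z = τ
  · rw [hzτ]; exact he
  obtain ⟨hzU, hzan, hzd, -⟩ := hW z hz
  refine R.eAt_eq_one_of_deriv_ne_zero (f := f) hzU hzan ?_ hzd
  filter_upwards [nhdsWithin_le_nhds (hWo.eventually_mem hz),
    nhdsWithin_le_nhds (isOpen_ne.eventually_mem hzτ)] with w hw hwτ
  exact (hW w hw).2.2.2 hwτ

theorem exists_eAt_eq_one : ∃ τ ∈ R.U, R.eAt τ = 1 := by
  obtain ⟨τ, hτ⟩ := R.nonempty_U
  obtain ⟨f, hf, hpos⟩ := R.exists_ordAt_pos hτ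
  have hder := meromorphicOrderAt_deriv_eq_sub_one (by exact_mod_cast hpos.ne')
    (R.coe_ordAt hf hτ)
  have hne : ∀ᶠ z in 𝓝[≠] τ, deriv (R.val f) z ≠ 0 :=
    (meromorphicOrderAt_ne_top_iff_eventually_ne_zero (R.meromorphicAt_val f τ hτ).deriv).mp
      (by rw [hder]; exact WithTop.coe_ne_top)
  obtain ⟨z, ⟨hz1, hz2⟩, hz3⟩ := ((hne.and (R.meromorphicAt_val f τ hτ).eventually_analyticAt).and
    (nhdsWithin_le_nhds (R.isOpen_U.eventually_mem hτ))).exists
  exact ⟨z, hz3, R.eAt_eq_one_of_deriv_ne_zero hz3 hz2 EventuallyEq.rfl hz1⟩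

open Classical in
/-- The uniformisation attached to a meromorphic realisation. -/
def toUniformization : Uniformization F where
  U := R.U
  isOpen_U := R.isOpen_U
  isPreconnected_U := R.isPreconnected_U
  pl τ := if hτ : τ ∈ R.U then R.placeAt hτ else R.placeAt R.nonempty_U.some_mem
  val := R.val
  e := R.eAt
  e_pos _ hτ := R.eAt_pos hτ
  eventually_e_eq_one _ hτ he := R.eventually_eAt_eq_one hτ he
  exists_e_eq_one := R.exists_eAt_eq_one
  meromorphicAt_val := R.meromorphicAt_val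
  val_one τ hτ := by simpa using R.val_algebraMap 1 τ hτ
  val_add := R.val_add
  val_smul c f τ hτ := by
    filter_upwards [R.val_mul (algebraMap ℂ F c) f τ hτ, R.val_algebraMap c τ hτ] with z h1 h2
    rw [h1, h2]
  order_val f hf τ hτ := by
    rw [dif_pos hτ, R.coe_ordAt hf hτ, R.ordAt_eq hτ hf]

theorem toUniformization_pl (hτ : τ ∈ R.U) : R.toUniformization.pl τ = R.placeAt hτ := by
  classical
  exact dif_pos hτ

end MeroRealization

end Fermat.Agent.MW
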