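import Fermat.Agent.MW.UniformizationBuild
import Fermat.Agent.MF.PlaceOrbits.Corollaries

/-!
# Fields of modular functions are uniformised by the upper half plane

Ratios of modular forms of equal weight are meromorphic on the upper half plane, and all but
finitely many places (those over `j = ∞`) come from points.
-/

set_option autoImplicit false
set_option linter.style.haveILetI false

noncomputable section

open Filter Topology UpperHalfPlane AlgebraicCurve WithZero
open scoped ModularForm Manifold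

namespace Fermat.Agent.MW

open MF MF.PlaceOrbits

variable {N : ℕ} {k : ℤ} {τ : ℂ}

/-- A nonzero form has no zero near a point, apart from the point. -/
theorem mform_eventually_ne_zero {f : MForm N k} (hf : f ≠ 0) (hτ : 0 < τ.im) :
    ∀ᶠ z in 𝓝[≠] τ, f (ofComplex z) ≠ 0 := by
  rcases (analyticAt_comp_ofComplex (ModularFormClass.holo f)
    ⟨τ, hτ⟩).eventually_eq_zero_or_eventually_ne_zero with h | h
  · exact absurd (analyticOrderAt_eq_top.mpr h)
      (MF.analyticOrderAt_ne_top (ModularFormClass.holo f) (mform_coe_ne_zero hf) ⟨τ, hτ⟩)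
  · exact h

/-- A ratio of modular forms as a function on the complex plane. -/
def mfFun (x : MFField N) (z : ℂ) : ℂ :=
  (mem_MFField_iff.1 x.2).choose_spec.choose (ofComplex z) /
    (mem_MFField_iff.1 x.2).choose_spec.choose_spec.choose (ofComplex z)

theorem mfFun_eventuallyEq {x : MFField N} {f g : MForm N k} (hg : g ≠ 0)
    (h : (x : LaurentSeries ℂ) = qL f / qL g) (hτ : 0 < τ.im) :
    mfFun x =ᶠ[𝓝[≠] τ] fun z => f (ofComplex z) / g (ofComplex z) := by
  obtain ⟨hg', hx'⟩ := (mem_MFField_iff.1 x.2).choose_spec.choose_spec.choose_spec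
  filter_upwards [mform_eventually_ne_zero hg' hτ, mform_eventually_ne_zero hg hτ] with z h1 h2
  rw [mfFun, div_eq_div_iff h1 h2]
  exact ratio_cross_eq hg' hg (hx'.symm.trans h) _

theorem meromorphicAt_mfFun (x : MFField N) (hτ : 0 < τ.im) : MeromorphicAt (mfFun x) τ :=
  ((analyticAt_comp_ofComplex (ModularFormClass.holo _) ⟨τ, hτ⟩).meromorphicAt).div
    ((analyticAt_comp_ofComplex (ModularFormClass.holo _) ⟨τ, hτ⟩).meromorphicAt)

theorem mfFun_algebraMap (c : ℂ) (hτ : 0 < τ.im) :
    mfFun (algebraMap ℂ (MFField N) c) =ᶠ[𝓝[≠] τ] fun _ => c := by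
  have hone : (1 : MForm N 0) ≠ 0 := fun h => by
    simpa [ModularForm.one_coe_eq_one] using congrArg (fun f : MForm N 0 => f UpperHalfPlane.I) h
  have hrep : ((algebraMap ℂ (MFField N) c : MFField N) : LaurentSeries ℂ) =
      qL ((c • 1 : MForm N 0) : ℍ → ℂ) / qL ((1 : MForm N 0) : ℍ → ℂ) := by
    rw [qL_mform_smul, ModularForm.one_coe_eq_one, qL_one, mul_one, div_one]
    rfl
  refine (mfFun_eventuallyEq (f := (c • 1 : MForm N 0)) hone hrep hτ).trans
    (Eventually.of_forall fun z => ?_)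
  rw [FunLike.coe_smul, ModularForm.one_coe_eq_one]
  simp

theorem mfFun_mul (x y : MFField N) (hτ : 0 < τ.im) :
    mfFun (x * y) =ᶠ[𝓝[≠] τ] fun z => mfFun x z * mfFun y z := by
  obtain ⟨k, f, g, hg, hx⟩ := mem_MFField_iff.1 x.2
  obtain ⟨l, f', g', hg', hy⟩ := mem_MFField_iff.1 y.2
  have hrep : ((x * y : MFField N) : LaurentSeries ℂ) = qL (f.mul f') / qL (g.mul g') := by
    rw [qL_mform_mul, qL_mform_mul, ← div_mul_div_comm, ← hx, ← hy]; rfl
  filter_upwards [mfFun_eventuallyEq (mform_mul_ne_zero hg hg') hrep hτ,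
    mfFun_eventuallyEq hg hx hτ, mfFun_eventuallyEq hg' hy hτ] with z h1 h2 h3
  rw [h1, h2, h3]
  simp [ModularForm.coe_mul, div_mul_div_comm]

theorem mfFun_add (x y : MFField N) (hτ : 0 < τ.im) :
    mfFun (x + y) =ᶠ[𝓝[≠] τ] fun z => mfFun x z + mfFun y z := by
  obtain ⟨k, f, g, hg, hx⟩ := mem_MFField_iff.1 x.2
  obtain ⟨l, f', g', hg', hy⟩ := mem_MFField_iff.1 y.2
  have hrep : ((x + y : MFField N) : LaurentSeries ℂ) =
      qL (f.mul g' + g.mul f' : MForm N (k + l)) / qL (g.mul g') := by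
    rw [qL_mform_add, qL_mform_mul, qL_mform_mul, qL_mform_mul,
      ← div_add_div _ _ (mt (qL_mform_eq_zero_iff g).mp hg) (mt (qL_mform_eq_zero_iff g').mp hg'),
      ← hx, ← hy]
    rfl
  filter_upwards [mfFun_eventuallyEq (mform_mul_ne_zero hg hg') hrep hτ,
    mfFun_eventuallyEq hg hx hτ, mfFun_eventuallyEq hg' hy hτ, mform_eventually_ne_zero hg hτ,
    mform_eventually_ne_zero hg' hτ] with z h1 h2 h3 h4 h5
  rw [h1, h2, h3, div_add_div _ _ h4 h5]
  simp [ModularForm.coe_mul]

/-- The order of a ratio at a point. -/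
theorem order_mfFun {x : MFField N} {f g : MForm N k} (hf : f ≠ 0) (hg : g ≠ 0)
    (h : (x : LaurentSeries ℂ) = qL f / qL g) (σ : ℍ) :
    meromorphicOrderAt (mfFun x) (σ : ℂ) = ((ptOrd f σ - ptOrd g σ : ℤ) : WithTop ℤ) := by
  rw [meromorphicOrderAt_congr (mfFun_eventuallyEq hg h σ.im_pos)]
  have h1 := (analyticAt_comp_ofComplex (ModularFormClass.holo f) σ).meromorphicAt
  have h2 := (analyticAt_comp_ofComplex (ModularFormClass.holo g) σ).meromorphicAt
  refine (meromorphicOrderAt_div h1 h2).trans ?_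
  rw [coe_ptOrd (ModularFormClass.holo f) (mform_coe_ne_zero hf),
    coe_ptOrd (ModularFormClass.holo g) (mform_coe_ne_zero hg)]
  rfl

variable [NeZero N]

/-- Modular functions as meromorphic functions on the upper half plane. -/
def mfRealization {E : IntermediateField ℂ (LaurentSeries ℂ)} (D : JData (RingHom.id ℂ) N E) :
    MeroRealization E where
  U := upperHalfPlaneSet
  isOpen_U := isOpen_upperHalfPlaneSet
  isPreconnected_U := (convex_halfSpace_im_gt 0).isPreconnected
  nonempty_U := ⟨Complex.I, by simp⟩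
  val x := mfFun (D.emb x)
  meromorphicAt_val x _ hτ := meromorphicAt_mfFun (D.emb x) hτ
  val_algebraMap c _ hτ := by
    rw [D.emb_algebraMap]
    exact mfFun_algebraMap c hτ
  val_add x y _ hτ := by
    rw [map_add]
    exact mfFun_add _ _ hτ
  val_mul x y _ hτ := by
    rw [map_mul]
    exact mfFun_mul _ _ hτ
  exists_nonconstant :=
    ⟨D.j, fun c h => D.transcendental_j (h ▸ isAlgebraic_algebraMap c)⟩

/-- All places away from `j = ∞` come from points of the upper half plane. -/
theorem compl_image_pl_subset {E : IntermediateField ℂ (LaurentSeries ℂ)}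
    (D : JData (RingHom.id ℂ) N E) :
    ((mfRealization D).toUniformization.pl '' (mfRealization D).toUniformization.U)ᶜ ⊆
      {P | 0 < P.ord D.j⁻¹} := by
  intro P hP
  rcases D.ord_j_cases P with h | ⟨a, ha⟩
  · exact h
  exfalso
  obtain ⟨τ, hτ⟩ := kleinJ_surjective (RingHom.id ℂ a)
  obtain ⟨h, hg⟩ := exists_isStabGen τ
  obtain ⟨π, hπ⟩ := D.exists_pointEquiv hτ hg
  obtain ⟨o, ho⟩ := π.surjective ⟨P, ha⟩
  induction o using Quotient.inductionOn' with
  | h q =>
    obtain ⟨hm, -, -⟩ := hπ q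
    rw [ho] at hm
    set σ : ℍ := q.out⁻¹ • τ
    have hσ : (σ : ℂ) ∈ (mfRealization D).U := σ.im_pos
    refine hP ⟨σ, hσ, ?_⟩
    rw [(mfRealization D).toUniformization_pl hσ]
    refine Place.ext (SetLike.ext fun x => ?_)
    rcases eq_or_ne x 0 with rfl | hx
    · simp
    rw [(mfRealization D).mem_placeAt hσ hx, hm x]
    obtain ⟨k, f, g, hf, hg', hrep⟩ := FormOrder.exists_rep ((map_ne_zero D.emb).2 hx)
    change 0 ≤ (meromorphicOrderAt (mfFun (D.emb x)) (σ : ℂ)).untop₀ ↔ ptVal N σ (D.emb x) ≤ 1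
    rw [order_mfFun hf hg' hrep σ, WithTop.untop₀_coe, ptVal,
      (ptOrder N σ).val_le_one_iff hf hg' hrep]
    show 0 ≤ ptOrd f σ - ptOrd g σ ↔ ptOrd g σ ≤ ptOrd f σ
    omega

end Fermat.Agent.MW

end
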